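import Fermat.Agent.ModFn.Cusp
import Fermat.Agent.LevelOne.Division

set_option autoImplicit false

/-!
# Orders of vanishing in the upper half plane, and the values of `j`
-/

namespace Fermat.Agent.ModFn

open UpperHalfPlane hiding I
open Complex Function HahnSeries ModularCurve Filter ModularForm EisensteinSeries
open scoped Real Manifold Topology MatrixGroups ModularForm
open Fermat.Agent.LevelOne

/-- Order of vanishing at a point of the upper half plane. -/
noncomputable def ordAt (f : ℍ → ℂ) (τ : ℍ) : ℕ∞ := analyticOrderAt (f ∘ ofComplex) (τ : ℂ)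

theorem analyticOnNhd_of_mdiff {f : ℍ → ℂ} (hf : MDiff f) :
    AnalyticOnNhd ℂ (f ∘ ofComplex) {z | 0 < z.im} := by
  rw [UpperHalfPlane.mdifferentiable_iff] at hf
  exact hf.analyticOnNhd isOpen_upperHalfPlaneSet

theorem analyticAt_of_mdiff {f : ℍ → ℂ} (hf : MDiff f) (τ : ℍ) :
    AnalyticAt ℂ (f ∘ ofComplex) (τ : ℂ) := analyticOnNhd_of_mdiff hf _ τ.im_pos

theorem ordAt_mul {f g : ℍ → ℂ} (hf : MDiff f) (hg : MDiff g) (τ : ℍ) :
    ordAt (f * g) τ = ordAt f τ + ordAt g τ :=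
  analyticOrderAt_mul (analyticAt_of_mdiff hf τ) (analyticAt_of_mdiff hg τ)

theorem ordAt_pow {f : ℍ → ℂ} (hf : MDiff f) (n : ℕ) (τ : ℍ) :
    ordAt (f ^ n) τ = n • ordAt f τ :=
  analyticOrderAt_pow (analyticAt_of_mdiff hf τ) n

theorem ordAt_eq_zero {f : ℍ → ℂ} (hf : MDiff f) (τ : ℍ) : ordAt f τ = 0 ↔ f τ ≠ 0 := by
  rw [ordAt, (analyticAt_of_mdiff hf τ).analyticOrderAt_eq_zero]
  simp

theorem ordAt_eq_one {f : ℍ → ℂ} (hf : MDiff f) (τ : ℍ) (h0 : f τ = 0)
    (h1 : deriv (f ∘ ofComplex) τ ≠ 0) : ordAt f τ = 1 :=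
  (analyticAt_of_mdiff hf τ).analyticOrderAt_eq_one_of_zero_deriv_ne_zero (by simpa using h0) h1

/-- R5: the order is infinite only for the zero function. -/
theorem ordAt_eq_top {f : ℍ → ℂ} (hf : MDiff f) (τ : ℍ) : ordAt f τ = ⊤ ↔ f = 0 := by
  constructor
  · intro h
    rw [ordAt, analyticOrderAt_eq_top] at h
    have h1 := (analyticOnNhd_of_mdiff hf).eqOn_zero_of_preconnected_of_eventuallyEq_zero
      ((convex_halfSpace_im_gt 0).isPreconnected) τ.im_pos h
    funext z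
    have := h1 z.im_pos
    simpa using this
  · rintro rfl
    rw [ordAt, analyticOrderAt_eq_top]
    exact Eventually.of_forall fun z => rfl

theorem ordAt_add_le {f g : ℍ → ℂ} (τ : ℍ) :
    min (ordAt f τ) (ordAt g τ) ≤ ordAt (f + g) τ := le_analyticOrderAt_add

theorem mdiff_jH : MDiff jH := hasExp_jH.mdifferentiable

theorem mdiff_discriminant : MDiff discriminant := isLevelOne_Δ.mdiff

theorem ordAt_discriminant (τ : ℍ) : ordAt discriminant τ = 0 :=
  (ordAt_eq_zero mdiff_discriminant τ).mpr (discriminant_ne_zero τ)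

theorem ordAt_E₄ {τ : ℍ} (h : E₄ τ = 0) : ordAt E₄ τ = 1 :=
  ordAt_eq_one isLevelOne_E₄.mdiff τ h ((isPrimitiveAt_E₄ h).simple τ h)

theorem ordAt_E₆ {τ : ℍ} (h : E₆ τ = 0) : ordAt E₆ τ = 1 :=
  ordAt_eq_one isLevelOne_E₆.mdiff τ h ((isPrimitiveAt_E₆ h).simple τ h)

theorem jH_eq_zero_iff {τ : ℍ} : jH τ = 0 ↔ E₄ τ = 0 := by
  rw [jH_apply, div_eq_zero_iff, or_iff_left (discriminant_ne_zero τ)]
  exact pow_eq_zero_iff (by norm_num)

theorem jH_eq_1728_iff {τ : ℍ} : jH τ = 1728 ↔ E₆ τ = 0 := by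
  have h := jH_sub_1728 τ
  constructor
  · intro h1
    rw [h1, sub_self, zero_mul] at h
    exact (pow_eq_zero_iff (by norm_num)).mp h.symm
  · intro h1
    rw [h1, zero_pow (by norm_num)] at h
    exact sub_eq_zero.mp ((mul_eq_zero.mp h).resolve_right (discriminant_ne_zero τ))

theorem mdiff_jH_sub (c : ℂ) : MDiff (fun z => jH z - c) :=
  (hasExp_jH.sub (HasExp.const 1 c)).mdifferentiable

/-- O1 -/
theorem ordAt_jH_of_eq_zero {τ : ℍ} (h : jH τ = 0) : ordAt jH τ = 3 := by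
  have h1 : jH * discriminant = (E₄ : ℍ → ℂ) ^ 3 := funext fun z => jH_mul_discriminant z
  have h2 := congrArg (fun f => ordAt f τ) h1
  simp only [ordAt_mul mdiff_jH mdiff_discriminant, ordAt_pow isLevelOne_E₄.mdiff,
    ordAt_discriminant, ordAt_E₄ (jH_eq_zero_iff.mp h)] at h2
  simpa using h2

/-- O2 -/
theorem ordAt_jH_sub_1728 {τ : ℍ} (h : jH τ = 1728) : ordAt (fun z => jH z - 1728) τ = 2 := by
  have h1 : (fun z => jH z - 1728) * discriminant = (E₆ : ℍ → ℂ) ^ 2 :=
    funext fun z => jH_sub_1728 z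
  have h2 := congrArg (fun f => ordAt f τ) h1
  simp only [ordAt_mul (mdiff_jH_sub 1728) mdiff_discriminant, ordAt_pow isLevelOne_E₆.mdiff,
    ordAt_discriminant, ordAt_E₆ (jH_eq_1728_iff.mp h)] at h2
  simpa using h2

/-- O3, simplicity -/
theorem ordAt_jH_sub_of_ne {τ : ℍ} (h0 : jH τ ≠ 0) (h1728 : jH τ ≠ 1728) :
    ordAt (fun z => jH z - jH τ) τ = 1 := by
  have h4 := jH_eq_zero_iff.not.mp h0
  have h6 := jH_eq_1728_iff.not.mp h1728
  have h1 : (fun z => jH z - jH τ) * discriminant = P12 τ := by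
    funext z
    simp only [P12, Pi.mul_apply, Pi.sub_apply, Pi.pow_apply, Pi.smul_apply, smul_eq_mul,
      sub_mul, jH_mul_discriminant, jH_apply τ]
  have hp := isPrimitiveAt_P12 h4 h6
  have h2 := congrArg (fun f => ordAt f τ) h1
  simp only [ordAt_mul (mdiff_jH_sub _) mdiff_discriminant, ordAt_discriminant,
    ordAt_eq_one hp.levelOne.mdiff τ hp.zero (hp.simple τ hp.zero), add_zero] at h2
  exact h2

/-- Ramification of `j` at every point of the upper half plane. -/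
theorem ordAt_jH_sub (τ : ℍ) : ordAt (fun z => jH z - jH τ) τ =
    if jH τ = 0 then 3 else if jH τ = 1728 then 2 else 1 := by
  split_ifs with h0 h1
  · rw [h0]
    simp only [sub_zero]
    exact ordAt_jH_of_eq_zero h0
  · rw [h1, ordAt_jH_sub_1728 h1]
  · exact ordAt_jH_sub_of_ne h0 h1

/-- `j` separates orbits. -/
theorem jH_eq_iff {τ τ' : ℍ} : jH τ = jH τ' ↔ ∃ γ : SL(2, ℤ), τ = γ • τ' := by
  constructor
  · intro h
    apply exists_smul_of_j_eq
    rw [jH_apply, jH_apply, div_eq_div_iff (discriminant_ne_zero _) (discriminant_ne_zero _)] at h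
    exact h
  · rintro ⟨γ, rfl⟩
    exact jH_smul γ τ'

/-- `j` takes every value. -/
theorem jH_surjective : Function.Surjective jH := by
  intro c
  by_contra hne
  push Not at hne
  have h1 := hasExp_jH.sub (HasExp.const 1 c)
  have h2 := h1.inv (fun τ => sub_ne_zero.mpr (hne τ))
  have hord : (jqModC ℂ - HahnSeries.C c).order = -1 := by
    have hc : (jqModC ℂ - HahnSeries.C c).coeff (-1) = 1 := by
      have := jqModC_pow_coeff_self (O := ℂ) 1
      rw [pow_one] at this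
      rw [HahnSeries.coeff_sub, show (-1 : ℤ) = -((1 : ℕ) : ℤ) from rfl, this]
      simp
    apply le_antisymm
    · apply HahnSeries.order_le_of_coeff_ne_zero
      rw [hc]; exact one_ne_zero
    · by_contra hlt
      rw [not_le] at hlt
      have h0 : jqModC ℂ - HahnSeries.C c ≠ 0 := by
        intro h0
        rw [h0] at hc
        simp at hc
      have h3 := HahnSeries.coeff_order_eq_zero.not.mpr h0
      apply h3
      rw [HahnSeries.coeff_sub]
      have h4 := jqModC_pow_coeff_of_lt (O := ℂ) 1 (m := (jqModC ℂ - HahnSeries.C c).order)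
        (by simpa using hlt)
      rw [pow_one] at h4
      have h5 : (jqModC ℂ - HahnSeries.C c).order ≠ 0 := by omega
      have h6 : (HahnSeries.C c : LaurentSeries ℂ).coeff (jqModC ℂ - HahnSeries.C c).order = 0 :=
        HahnSeries.coeff_single_of_ne h5
      rw [h4, h6, sub_zero]
  have h0 : jqModC ℂ - HahnSeries.C c ≠ 0 := by
    intro h0
    rw [h0] at hord
    simp at hord
  have hord' : (jqModC ℂ - HahnSeries.C c)⁻¹.order = 1 := by
    have h3 := HahnSeries.order_mul h0 (inv_ne_zero h0)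
    rw [mul_inv_cancel₀ h0, HahnSeries.order_one, hord] at h3
    omega
  have h3 : ∀ m : ℤ, m ≤ 0 → (jqModC ℂ - HahnSeries.C c)⁻¹.coeff m = 0 := by
    intro m hm
    apply HahnSeries.coeff_eq_zero_of_lt_order
    omega
  obtain ⟨h4, -⟩ := eq_const_of_invariant h2 (fun γ τ => by
    simp only [Pi.inv_apply, Pi.sub_apply, jH_smul]) (fun m hm => h3 m hm.le)
  have h5 := h4 UpperHalfPlane.I
  rw [h3 0 le_rfl, Pi.inv_apply, inv_eq_zero] at h5
  exact sub_ne_zero.mpr (hne _) h5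

/-- O3 -/
theorem exists_jH_eq {a : ℂ} (h0 : a ≠ 0) (h1728 : a ≠ 1728) :
    ∃ τ, jH τ = a ∧ ordAt (fun z => jH z - a) τ = 1 := by
  obtain ⟨τ, rfl⟩ := jH_surjective a
  exact ⟨τ, rfl, ordAt_jH_sub_of_ne h0 h1728⟩

/-! ### The elliptic points -/

/-- `ρ = (-1 + √-3)/2` -/
noncomputable def rhoH : ℍ := ⟨⟨-1 / 2, Real.sqrt 3 / 2⟩, by positivity⟩

theorem rhoH_sq : ((rhoH : ℍ) : ℂ) ^ 2 + rhoH + 1 = 0 := by
  have h3 : Real.sqrt 3 * Real.sqrt 3 = 3 := Real.mul_self_sqrt (by norm_num)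
  apply Complex.ext
  · have : ((rhoH : ℍ) : ℂ) = ⟨-1 / 2, Real.sqrt 3 / 2⟩ := rfl
    rw [this]
    simp only [pow_two, Complex.add_re, Complex.mul_re, Complex.one_re, Complex.zero_re]
    linarith
  · have : ((rhoH : ℍ) : ℂ) = ⟨-1 / 2, Real.sqrt 3 / 2⟩ := rfl
    rw [this]
    simp only [pow_two, Complex.add_im, Complex.mul_im, Complex.one_im, Complex.zero_im]
    ring

theorem ST_smul_rhoH : (ModularGroup.S * ModularGroup.T) • rhoH = rhoH := by
  apply UpperHalfPlane.ext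
  have h : ((ModularGroup.S * ModularGroup.T : SL(2, ℤ)) : Matrix (Fin 2) (Fin 2) ℤ) =
      !![0, -1; 1, 1] := by
    rw [Matrix.SpecialLinearGroup.coe_mul, ModularGroup.coe_S, ModularGroup.coe_T]
    decide
  have h1 : ((rhoH : ℍ) : ℂ) + 1 ≠ 0 := by
    intro h0
    have := congrArg Complex.im h0
    have h2 := rhoH.im_pos
    simp at this
    linarith
  rw [← act_coe, coe_act _ (by rw [Matrix.SpecialLinearGroup.det_coe]; norm_num), h]
  simp only [Matrix.of_apply, Matrix.cons_val', Matrix.cons_val_zero, Matrix.cons_val_one,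
    Matrix.cons_val_fin_one, Int.cast_zero, Int.cast_neg, Int.cast_one, zero_mul, one_mul, zero_add]
  rw [div_eq_iff h1]
  linear_combination -rhoH_sq

theorem jH_rhoH : jH rhoH = 0 := by
  rw [jH_eq_zero_iff]
  have h1 := E₄_smul (ModularGroup.S * ModularGroup.T) rhoH
  rw [ST_smul_rhoH] at h1
  have h2 : denom ((ModularGroup.S * ModularGroup.T : SL(2, ℤ)) : GL (Fin 2) ℝ) rhoH =
      ((rhoH : ℍ) : ℂ) + 1 := by
    rw [ModularGroup.denom_apply]
    simp [ModularGroup.coe_S, ModularGroup.coe_T]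
  rw [h2] at h1
  have h3 : (((rhoH : ℍ) : ℂ) + 1) ^ (4 : ℤ) = ((rhoH : ℍ) : ℂ) ^ 2 := by
    have h5 := rhoH_sq
    rw [show (4 : ℤ) = ((4 : ℕ) : ℤ) from rfl, zpow_natCast]
    linear_combination (((rhoH : ℍ) : ℂ) ^ 2 + 3 * rhoH + 1) * h5
  rw [h3] at h1
  have h4 : (((rhoH : ℍ) : ℂ) ^ 2 - 1) * E₄ rhoH = 0 := by
    linear_combination -h1
  rcases mul_eq_zero.mp h4 with h5 | h5
  · exfalso
    have h6 : ((rhoH : ℍ) : ℂ) = -2 := by linear_combination rhoH_sq - h5
    have := congrArg Complex.im h6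
    have h2 := rhoH.im_pos
    simp at this
    linarith
  · exact h5

theorem S_smul_I : ModularGroup.S • UpperHalfPlane.I = UpperHalfPlane.I := by
  apply UpperHalfPlane.ext
  rw [← act_coe, coe_act _ (by rw [Matrix.SpecialLinearGroup.det_coe]; norm_num)]
  simp [ModularGroup.coe_S]

theorem jH_I : jH UpperHalfPlane.I = 1728 := by
  rw [jH_eq_1728_iff]
  have h1 := E₆_smul ModularGroup.S UpperHalfPlane.I
  rw [S_smul_I] at h1
  have h2 : denom ((ModularGroup.S : SL(2, ℤ)) : GL (Fin 2) ℝ) UpperHalfPlane.I =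
      Complex.I := by
    rw [ModularGroup.denom_apply]
    simp [ModularGroup.coe_S]
  rw [h2] at h1
  have h3 : Complex.I ^ (6 : ℤ) = -1 := by
    rw [show (6 : ℤ) = ((6 : ℕ) : ℤ) from rfl, zpow_natCast]
    rw [show 6 = 2 * 3 by norm_num, pow_mul, Complex.I_sq]
    norm_num
  rw [h3] at h1
  have h4 : 2 * E₆ UpperHalfPlane.I = 0 := by linear_combination h1
  simpa using h4

end Fermat.Agent.ModFn
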