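import Fermat.Agent.ModFn.ModR

set_option autoImplicit false

/-!
# Orders at the cusps
-/

namespace Fermat.Agent.ModFn

open UpperHalfPlane hiding I
open Complex Function HahnSeries ModularCurve Filter ModularForm EisensteinSeries
open scoped Real Manifold Topology MatrixGroups ModularForm
open Fermat.Agent.LevelOne

/-! ### Orders of expansions -/

theorem order_qExpand {R : Type*} [CommRing R] (m : ℕ) [NeZero m] (φ : LaurentSeries R) :
    (qExpand R m φ).order = m * φ.order := by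
  by_cases h0 : φ = 0
  · subst h0; simp
  · have h1 : qExpand R m φ ≠ 0 := fun h => h0 (qExpand_injective m (h.trans (map_zero _).symm))
    have hm : (0 : ℤ) < m := by exact_mod_cast Nat.pos_of_neZero m
    apply le_antisymm
    · apply HahnSeries.order_le_of_coeff_ne_zero
      rw [qExpand_coeff_mul]
      exact HahnSeries.coeff_order_eq_zero.not.mpr h0
    · by_contra hlt
      rw [not_le] at hlt
      have h2 := HahnSeries.coeff_order_eq_zero.not.mpr h1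
      by_cases hd : (m : ℤ) ∣ (qExpand R m φ).order
      · obtain ⟨k, hk⟩ := hd
        rw [hk, qExpand_coeff_mul] at h2
        apply h2
        apply HahnSeries.coeff_eq_zero_of_lt_order
        rw [hk] at hlt
        exact lt_of_mul_lt_mul_left hlt hm.le
      · exact h2 (qExpand_coeff_of_not_dvd m _ hd)

theorem order_jqModC {R : Type*} [CommRing R] [Nontrivial R] : (jqModC R).order = -1 := by
  have h1 := jqModC_pow_coeff_self (O := R) 1
  rw [pow_one] at h1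
  have hne : jqModC R ≠ 0 := by
    intro h
    rw [h] at h1
    simp at h1
  apply le_antisymm
  · apply HahnSeries.order_le_of_coeff_ne_zero
    rw [show (-1 : ℤ) = -((1 : ℕ) : ℤ) by rfl, h1]
    exact one_ne_zero
  · by_contra hlt
    rw [not_le] at hlt
    have h2 := jqModC_pow_coeff_of_lt (O := R) 1 (m := (jqModC R).order) (by simpa using hlt)
    rw [pow_one] at h2
    exact hne (HahnSeries.coeff_order_eq_zero.mp h2)

theorem order_qExpand_twist_jqModC {R : Type*} [CommRing R] [Nontrivial R] (m : ℕ) [NeZero m]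
    (ζ : Rˣ) : (qExpand R m (twist ζ (jqModC R))).order = -m := by
  rw [order_qExpand, twist_order, order_jqModC]
  ring

section

variable {K : Type*} [Field K] [Algebra K ℂ]

/-- R7 -/
theorem order_qexp_translate {M : ℕ} [NeZero M] (hK : HasRoots K M) (k : ℤ) (f g : expAlg K M)
    (h : ∀ τ : ℍ, g.1 τ = f.1 (ModularGroup.T ^ k • τ)) :
    (qexp K M g).order = (qexp K M f).order := by
  obtain ⟨z, hz⟩ := hK.exists_unit dvd_rfl
  have h1 := (hasExp_qexp f).translate k (g := g.1) (fun τ => by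
    rw [h τ, T_zpow_smul_eq_vadd])
  have h2 : qexp K M g = twist (z ^ k) (qexp K M f) := by
    apply qexp_eq
    rw [coeffMap_twist, map_zpow, hz]
    exact h1
  rw [h2, twist_order]

/-- R6, expansion of `j(dτ)`. -/
theorem qexp_jd {M : ℕ} [NeZero M] (d : ℕ) [NeZero d] (h : jd d ∈ expAlg K M) :
    qexp K M ⟨jd d, h⟩ = qExpand K (M * d) (jqModC K) := by
  apply qexp_eq
  rw [coeffMap_qExpand, coeffMap_jqModC]
  have h1 := (hasExp_jd d).qExpand (m := M)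
  rw [qExpand_qExpand] at h1
  simpa only [one_mul] using h1

end

/-! ### Invariance of `j(dτ)` -/

/-- Conjugating `Γ₀(d)` by `diag(d, 1)`. -/
theorem exists_conj_of_mem_Gamma0 {d : ℕ} [NeZero d] (γ : SL(2, ℤ)) (hγ : (d : ℤ) ∣ γ 1 0) :
    ∃ δ : SL(2, ℤ), !![(d : ℤ), 0; 0, 1] * (γ : Matrix (Fin 2) (Fin 2) ℤ) =
      (δ : Matrix (Fin 2) (Fin 2) ℤ) * !![(d : ℤ), 0; 0, 1] := by
  obtain ⟨c, hc⟩ := hγ
  have hdet := γ.2
  rw [Matrix.det_fin_two] at hdet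
  have hd : (!![γ 0 0, (d : ℤ) * γ 0 1; c, γ 1 1] : Matrix (Fin 2) (Fin 2) ℤ).det = 1 := by
    have : (γ : Matrix (Fin 2) (Fin 2) ℤ) 1 0 = d * c := hc
    rw [this] at hdet
    rw [Matrix.det_fin_two_of]
    linear_combination hdet
  refine ⟨⟨!![γ 0 0, (d : ℤ) * γ 0 1; c, γ 1 1], hd⟩, ?_⟩
  ext i j
  fin_cases i <;> fin_cases j <;>
    simp [Matrix.mul_apply, Fin.sum_univ_two, mul_comm]
  have : (γ : Matrix (Fin 2) (Fin 2) ℤ) 1 0 = d * c := hc
  rw [this]; ring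

theorem jd_smul_of_dvd {d : ℕ} [NeZero d] (γ : SL(2, ℤ)) (hγ : (d : ℤ) ∣ γ 1 0) (τ : ℍ) :
    jd d (γ • τ) = jd d τ := by
  obtain ⟨δ, hδ⟩ := exists_conj_of_mem_Gamma0 γ hγ
  have hd : (!![(d : ℤ), 0; 0, 1] : Matrix (Fin 2) (Fin 2) ℤ).det ≠ 0 := by
    rw [det_diag]; exact_mod_cast NeZero.ne d
  rw [jd, jd, ← act_mul_coe _ hd γ, hδ, act_coe_mul _ _ hd, jH_smul]

/-- R8 -/
theorem jd_smul {N d : ℕ} [NeZero d] (hdN : d ∣ N) {γ : SL(2, ℤ)}
    (hγ : γ ∈ CongruenceSubgroup.Gamma0 N) (τ : ℍ) : jd d (γ • τ) = jd d τ := by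
  apply jd_smul_of_dvd
  rw [CongruenceSubgroup.Gamma0_mem, ZMod.intCast_zmod_eq_zero_iff_dvd] at hγ
  exact (Int.natCast_dvd_natCast.mpr hdN).trans hγ

/-- First column of a product with an upper triangular matrix. -/
theorem gcd_first_column {A : Matrix (Fin 2) (Fin 2) ℤ} {γ : SL(2, ℤ)} {a : ℕ} {b d : ℤ}
    (h : A = (γ : Matrix (Fin 2) (Fin 2) ℤ) * !![(a : ℤ), b; 0, d]) :
    Int.gcd (A 0 0) (A 1 0) = a := by
  have h1 : A 0 0 = γ 0 0 * a := by
    rw [h]; simp [Matrix.mul_apply, Fin.sum_univ_two]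
  have h2 : A 1 0 = γ 1 0 * a := by
    rw [h]; simp [Matrix.mul_apply, Fin.sum_univ_two]
  rw [h1, h2, Int.gcd_mul_right, Int.natAbs_natCast]
  have h3 : IsCoprime (γ 0 0) (γ 1 0) := γ.isCoprime_col 0
  rw [Int.isCoprime_iff_gcd_eq_one.mp h3, one_mul]

/-- Expansion of `j_N ∘ δ`, in width `N / gcd(c, N)`, with `c` the lower left entry of `δ`. -/
theorem exists_hasExp_jd_smul (N : ℕ) [NeZero N] (δ : SL(2, ℤ)) :
    ∃ (a d : ℕ) (b : ℤ), 0 < a ∧ 0 < d ∧ 0 ≤ b ∧ b < d ∧ a * d = N ∧ a = Int.gcd (δ 1 0) N ∧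
      (∃ γ : SL(2, ℤ), !![(N : ℤ), 0; 0, 1] * (δ : Matrix (Fin 2) (Fin 2) ℤ) =
        (γ : Matrix (Fin 2) (Fin 2) ℤ) * !![(a : ℤ), b; 0, (d : ℤ)]) ∧
      (∀ τ, jd N (δ • τ) = jH (act !![(a : ℤ), b; 0, (d : ℤ)] τ)) ∧
      (∀ [NeZero a] [NeZero d], HasExp d (fun τ => jd N (δ • τ))
        (qExpand ℂ a (twist (zetaU d ^ b) (jqModC ℂ)))) := by
  have hdet : (!![(N : ℤ), 0; 0, 1] * (δ : Matrix (Fin 2) (Fin 2) ℤ)).det = N := by
    rw [Matrix.det_mul, det_diag, δ.2, mul_one]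
  have hN : (0 : ℤ) < N := by exact_mod_cast Nat.pos_of_neZero N
  obtain ⟨γ, a, d, b, ha, hd, hb, hbd, hadN, hγ⟩ :=
    exists_eq_mul_upper (!![(N : ℤ), 0; 0, 1] * (δ : Matrix (Fin 2) (Fin 2) ℤ))
      (by rw [hdet]; exact hN)
  rw [hdet] at hadN
  have hg := gcd_first_column hγ
  have hD : (!![(N : ℤ), 0; 0, 1] : Matrix (Fin 2) (Fin 2) ℤ).det ≠ 0 := by
    rw [det_diag]; exact hN.ne'
  have hU : (!![(a : ℤ), b; 0, (d : ℤ)] : Matrix (Fin 2) (Fin 2) ℤ).det ≠ 0 := by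
    rw [Matrix.det_fin_two_of]
    simp [ha.ne', hd.ne']
  have hfun : ∀ τ, jd N (δ • τ) = jH (act !![(a : ℤ), b; 0, (d : ℤ)] τ) := by
    intro τ
    rw [jd, ← act_mul_coe _ hD δ, hγ, act_coe_mul _ _ hU, jH_smul]
  refine ⟨a, d, b, ha, hd, hb, hbd, by exact_mod_cast hadN, ?_, ⟨γ, hγ⟩, hfun, ?_⟩
  · rw [← hg]
    have h1 : (!![(N : ℤ), 0; 0, 1] * (δ : Matrix (Fin 2) (Fin 2) ℤ)) 0 0 = N * δ 0 0 := by
      simp [Matrix.mul_apply, Fin.sum_univ_two]
    have h2 : (!![(N : ℤ), 0; 0, 1] * (δ : Matrix (Fin 2) (Fin 2) ℤ)) 1 0 = δ 1 0 := by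
      simp [Matrix.mul_apply, Fin.sum_univ_two]
    rw [h1, h2, Int.gcd_comm]
    have h3 : IsCoprime (δ 1 0) (δ 0 0) := (δ.isCoprime_col 0).symm
    rw [Int.isCoprime_iff_gcd_eq_one] at h3
    rw [mul_comm]
    exact (Int.gcd_mul_right_right_of_gcd_eq_one h3).symm ▸ rfl
  · intro _ _
    have h1 := hasExp_jH_upper a d b
    exact h1.congr (funext fun τ => (hfun τ).symm) rfl

/-- The order of `j_N ∘ δ` in the parameter `q_N` is `-gcd(c, N)²`. -/
theorem exists_hasExp_jd_smul_order (N : ℕ) [NeZero N] (δ : SL(2, ℤ)) :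
    ∃ φ : LaurentSeries ℂ, HasExp N (fun τ => jd N (δ • τ)) φ ∧
      φ.order = -((Int.gcd (δ 1 0) N : ℤ) ^ 2) := by
  obtain ⟨a, d, b, ha, hd, -, -, hadN, hg, -, -, hexp⟩ := exists_hasExp_jd_smul N δ
  have : NeZero a := ⟨ha.ne'⟩
  have : NeZero d := ⟨hd.ne'⟩
  have h1 := (hexp).qExpand (m := a)
  have h2 : d * a = N := by rw [mul_comm]; exact hadN
  refine ⟨qExpand ℂ a (qExpand ℂ a (twist (zetaU d ^ b) (jqModC ℂ))), ?_, ?_⟩
  · subst h2; exact h1
  · rw [order_qExpand, order_qExpand_twist_jqModC, ← hg]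
    ring

/-- R8, converse -/
theorem mem_Gamma0_of_jd_smul {N : ℕ} [NeZero N] {γ : SL(2, ℤ)}
    (h : ∀ τ, jd N (γ • τ) = jd N τ) : γ ∈ CongruenceSubgroup.Gamma0 N := by
  obtain ⟨φ, hφ, hord⟩ := exists_hasExp_jd_smul_order N γ
  have h1 : HasExp N (jd N) φ := hφ.congr (funext h) rfl
  have h2 := (hasExp_jd N).qExpand (m := N)
  rw [one_mul] at h2
  have h3 := h1.unique h2
  rw [h3, order_qExpand, order_qExpand, order_jqModC] at hord
  have h4 : ((Int.gcd (γ 1 0) N : ℕ) : ℤ) ^ 2 = (N : ℤ) ^ 2 := by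
    linarith
  have h5 : Int.gcd (γ 1 0) N = N := by
    have := (pow_left_inj₀ (a := ((Int.gcd (γ 1 0) N : ℕ) : ℤ)) (b := (N : ℤ)) (by positivity)
      (by positivity) two_ne_zero).mp h4
    exact_mod_cast this
  rw [CongruenceSubgroup.Gamma0_mem, ZMod.intCast_zmod_eq_zero_iff_dvd]
  have h6 := Int.gcd_dvd_left (a := γ 1 0) (b := (N : ℤ))
  rwa [h5] at h6

theorem jd_smul_iff {N : ℕ} [NeZero N] {γ : SL(2, ℤ)} :
    (∀ τ, jd N (γ • τ) = jd N τ) ↔ γ ∈ CongruenceSubgroup.Gamma0 N :=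
  ⟨mem_Gamma0_of_jd_smul, fun h => jd_smul dvd_rfl h⟩

/-- R9 -/
theorem dvd_of_T_zpow_trivial {K : Type*} [Field K] [Algebra K ℂ] {M : ℕ} [NeZero M] {k : ℤ}
    (h : ∀ f ∈ modR K M, ∀ τ : ℍ, f (ModularGroup.T ^ k • τ) = f τ) : (M : ℤ) ∣ k := by
  have hdet : (!![((1 : ℕ) : ℤ), 0; 0, (M : ℤ)] : Matrix (Fin 2) (Fin 2) ℤ).det = M := by
    simp [Matrix.det_fin_two_of]
  have hM : (0 : ℤ) < M := by exact_mod_cast Nat.pos_of_neZero M
  have h1 := h (fun τ => jH (act !![((1 : ℕ) : ℤ), 0; 0, (M : ℤ)] τ))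
    (jH_act_mem_modR (by rw [hdet]; exact hM) (by rw [hdet]))
  have h2 := hasExp_jH_upper 1 M 0
  rw [zpow_zero, twist_one, qExpand_one_apply] at h2
  have h3 := h2.translate k (g := fun τ => jH (act !![((1 : ℕ) : ℤ), 0; 0, (M : ℤ)] τ))
    (fun τ => by rw [← T_zpow_smul_eq_vadd]; exact (h1 τ).symm)
  have h4 := h3.unique h2
  have h5 := congrArg (fun φ : LaurentSeries ℂ => φ.coeff (-1)) h4
  have h6 : (jqModC ℂ).coeff (-1) = 1 := by
    have := jqModC_pow_coeff_self (O := ℂ) 1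
    rw [pow_one] at this
    exact this
  simp only [twist_coeff, h6, mul_one] at h5
  rw [Units.val_eq_one, ← zpow_mul, zetaU_zpow_eq_one_iff] at h5
  simpa using h5

end Fermat.Agent.ModFn
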