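import Fermat.Agent.ModFn.Growth

set_option autoImplicit false

/-!
# Contracting a Laurent series in `q^m` to one in `q`, and functions of smaller period
-/

namespace Fermat.Agent.ModFn

open UpperHalfPlane hiding I
open Complex Function HahnSeries ModularCurve Filter
open scoped Real Manifold Topology

section

variable {R : Type*} [CommRing R]

/-- The series with coefficients `φ_{m k}`. -/
noncomputable def contract (m : ℕ) [NeZero m] (φ : LaurentSeries R) : LaurentSeries R :=
  HahnSeries.ofSuppBddBelow (fun k : ℤ => φ.coeff ((m : ℤ) * k)) (by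
    refine ⟨-|φ.order|, fun k hk => ?_⟩
    have h1 : φ.order ≤ (m : ℤ) * k := HahnSeries.order_le_of_coeff_ne_zero hk
    have hm : (1 : ℤ) ≤ m := by exact_mod_cast Nat.pos_of_neZero m
    by_contra hlt
    rw [not_le] at hlt
    have h2 : k < 0 := hlt.trans_le (neg_nonpos.mpr (abs_nonneg _))
    have h3 : (m : ℤ) * k ≤ k := by nlinarith
    have h4 := neg_abs_le φ.order
    omega)

@[simp] theorem contract_coeff (m : ℕ) [NeZero m] (φ : LaurentSeries R) (k : ℤ) :
    (contract m φ).coeff k = φ.coeff ((m : ℤ) * k) := rfl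

theorem qExpand_contract {m : ℕ} [NeZero m] {φ : LaurentSeries R}
    (h : ∀ n : ℤ, ¬ (m : ℤ) ∣ n → φ.coeff n = 0) : qExpand R m (contract m φ) = φ := by
  ext n
  by_cases hn : (m : ℤ) ∣ n
  · obtain ⟨k, rfl⟩ := hn
    rw [qExpand_coeff_mul, contract_coeff]
  · rw [qExpand_coeff_of_not_dvd m _ hn, h n hn]

theorem contract_qExpand {m : ℕ} [NeZero m] (φ : LaurentSeries R) :
    contract m (qExpand R m φ) = φ := by
  ext n
  rw [contract_coeff, qExpand_coeff_mul]

end

/-- A function with an expansion of width `h * m` which is `h`-periodic has an expansion of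
width `h`. -/
theorem HasExp.contract {h m : ℕ} [NeZero h] [NeZero m] {f : ℍ → ℂ} {φ : LaurentSeries ℂ}
    (hf : HasExp (h * m) f φ) (hper : ∀ τ : ℍ, f (((h : ℤ) : ℝ) +ᵥ τ) = f τ) :
    HasExp h f (ModFn.contract m φ) ∧ ModularCurve.qExpand ℂ m (ModFn.contract m φ) = φ := by
  have h1 := hf.translate (h : ℤ) (g := f) (fun τ => (hper τ).symm)
  have h2 := h1.unique hf
  have h3 : ∀ n : ℤ, ¬ (m : ℤ) ∣ n → φ.coeff n = 0 := by
    intro n hn
    have h4 := congrArg (fun x : LaurentSeries ℂ => x.coeff n) h2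
    simp only [twist_coeff] at h4
    by_contra hne
    have h5 : (((zetaU (h * m) ^ (h : ℤ)) ^ n : ℂˣ) : ℂ) = 1 := by
      have := mul_right_cancel₀ hne (h4.trans (one_mul _).symm)
      exact this
    rw [← zpow_mul, ← Units.val_one, ← Units.ext_iff, zetaU_zpow_eq_one_iff] at h5
    apply hn
    push_cast at h5
    exact (mul_dvd_mul_iff_left (by exact_mod_cast NeZero.ne h)).mp h5
  have h4 := qExpand_contract h3
  refine ⟨fun τ => ?_, h4⟩
  have h5 := hf τ
  rwa [← h4, SumsTo.qExpand_iff, qpar_pow] at h5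

end Fermat.Agent.ModFn
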