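import Fermat.Agent.ModFn.MatAct

set_option autoImplicit false

/-!
# The algebra of functions on `ℍ` with a `K`-rational expansion at infinity
-/

namespace Fermat.Agent.ModFn

open UpperHalfPlane hiding I
open Complex Function HahnSeries ModularCurve Filter ModularForm EisensteinSeries
open scoped Real Manifold Topology MatrixGroups ModularForm

section Commute

variable {R S : Type*} [CommRing R] [CommRing S]

theorem coeffMap_qExpand (f : R →+* S) (m : ℕ) [NeZero m] (φ : LaurentSeries R) :
    coeffMap f (qExpand R m φ) = qExpand S m (coeffMap f φ) := by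
  ext n
  by_cases hn : (m : ℤ) ∣ n
  · obtain ⟨k, rfl⟩ := hn
    rw [qExpand_coeff_mul, coeffMap_coeff, coeffMap_coeff, qExpand_coeff_mul]
  · rw [qExpand_coeff_of_not_dvd m _ hn, coeffMap_coeff, qExpand_coeff_of_not_dvd m _ hn, map_zero]

theorem coeffMap_twist (f : R →+* S) (ζ : Rˣ) (φ : LaurentSeries R) :
    coeffMap f (twist ζ φ) = twist (Units.map f.toMonoidHom ζ) (coeffMap f φ) := by
  ext n
  rw [coeffMap_coeff, twist_coeff, twist_coeff, coeffMap_coeff, map_mul, ← map_zpow]
  rfl

theorem coeffMap_injective {f : R →+* S} (hf : Function.Injective f) :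
    Function.Injective (coeffMap f) := fun x y h => by
  ext n
  exact hf (congrArg (fun z : LaurentSeries S => z.coeff n) h)

theorem coeffMap_jqModC (f : R →+* S) : coeffMap f (jqModC R) = jqModC S := by
  rw [← map_jqModC f]
  rfl

theorem coeffMap_order {f : R →+* S} (hf : Function.Injective f) (φ : LaurentSeries R) :
    (coeffMap f φ).order = φ.order := by
  by_cases h0 : φ = 0
  · subst h0; simp
  · have h1 : coeffMap f φ ≠ 0 := fun h => h0 (coeffMap_injective hf (h.trans (map_zero _).symm))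
    have hsupp : (coeffMap f φ).support = φ.support := by
      ext n
      simp only [HahnSeries.mem_support, coeffMap_coeff, Ne, map_eq_zero_iff f hf]
    rw [HahnSeries.order_of_ne h1, HahnSeries.order_of_ne h0]
    congr 1

end Commute

variable (K : Type*) [Field K] [Algebra K ℂ]

/-- Functions on the upper half plane having an expansion in `K((q_M))`. -/
noncomputable def expAlg (M : ℕ) : Subalgebra K (ℍ → ℂ) where
  carrier := {f | ∃ φ : LaurentSeries K, HasExp M f (coeffMap (algebraMap K ℂ) φ)}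
  mul_mem' := by
    rintro f g ⟨φ, hφ⟩ ⟨ψ, hψ⟩
    exact ⟨φ * ψ, by rw [map_mul]; exact hφ.mul hψ⟩
  one_mem' := ⟨1, by rw [map_one]; exact HasExp.one M⟩
  add_mem' := by
    rintro f g ⟨φ, hφ⟩ ⟨ψ, hψ⟩
    exact ⟨φ + ψ, by rw [map_add]; exact hφ.add hψ⟩
  zero_mem' := ⟨0, by rw [map_zero]; exact HasExp.zero M⟩
  algebraMap_mem' := fun c => ⟨HahnSeries.C c, by
    have h1 := HasExp.const M (algebraMap K ℂ c)
    have h2 : coeffMap (algebraMap K ℂ) (HahnSeries.C c) = HahnSeries.C (algebraMap K ℂ c) := by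
      rw [HahnSeries.C_apply, coeffMap_single, HahnSeries.C_apply]
    rw [h2]
    exact h1⟩

variable {K}

theorem mem_expAlg_iff {M : ℕ} {f : ℍ → ℂ} :
    f ∈ expAlg K M ↔ ∃ φ : LaurentSeries K, HasExp M f (coeffMap (algebraMap K ℂ) φ) := Iff.rfl

/-- The expansion of an element of `expAlg`. -/
noncomputable def qexpFun {M : ℕ} (f : expAlg K M) : LaurentSeries K := f.2.choose

theorem hasExp_qexpFun {M : ℕ} (f : expAlg K M) :
    HasExp M f.1 (coeffMap (algebraMap K ℂ) (qexpFun f)) := f.2.choose_spec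

theorem qexpFun_eq {M : ℕ} [NeZero M] (f : expAlg K M) {φ : LaurentSeries K}
    (h : HasExp M f.1 (coeffMap (algebraMap K ℂ) φ)) : qexpFun f = φ :=
  coeffMap_injective (algebraMap K ℂ).injective ((hasExp_qexpFun f).unique h)

variable (K) in
/-- The `q`-expansion homomorphism. -/
noncomputable def qexp (M : ℕ) [NeZero M] : expAlg K M →ₐ[K] LaurentSeries K where
  toFun := qexpFun
  map_one' := qexpFun_eq _ (by rw [map_one]; exact HasExp.one M)
  map_mul' f g := qexpFun_eq _ (by rw [map_mul]; exact (hasExp_qexpFun f).mul (hasExp_qexpFun g))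
  map_zero' := qexpFun_eq _ (by rw [map_zero]; exact HasExp.zero M)
  map_add' f g := qexpFun_eq _ (by rw [map_add]; exact (hasExp_qexpFun f).add (hasExp_qexpFun g))
  commutes' c := qexpFun_eq _ (by
    rw [algebraMap_laurentSeries_eq_single, coeffMap_single]
    exact HasExp.const M (algebraMap K ℂ c))

theorem hasExp_qexp {M : ℕ} [NeZero M] (f : expAlg K M) :
    HasExp M f.1 (coeffMap (algebraMap K ℂ) (qexp K M f)) := hasExp_qexpFun f

/-- The characterisation of the expansion as a convergent sum. -/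
theorem hasSum_qexp {M : ℕ} [NeZero M] (f : expAlg K M) (τ : ℍ) :
    HasSum (fun n : ℤ => algebraMap K ℂ ((qexp K M f).coeff n) *
      Complex.exp (2 * π * I * n * τ / M)) (f.1 τ) := by
  have := hasExp_qexp f τ
  rw [SumsTo] at this
  simpa only [coeffMap_coeff, qpar_zpow] using this

theorem qexp_eq {M : ℕ} [NeZero M] (f : expAlg K M) {φ : LaurentSeries K}
    (h : HasExp M f.1 (coeffMap (algebraMap K ℂ) φ)) : qexp K M f = φ := qexpFun_eq f h

theorem qexp_injective (M : ℕ) [NeZero M] : Function.Injective (qexp K M) := fun f g h => by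
  apply Subtype.ext
  have h1 := hasExp_qexp f
  rw [h] at h1
  exact h1.eq_of_same (hasExp_qexp g)

instance (M : ℕ) [NeZero M] : IsDomain (expAlg K M) :=
  (qexp_injective M).isDomain (qexp K M)

theorem mdiff_of_mem {M : ℕ} [NeZero M] {f : ℍ → ℂ} (hf : f ∈ expAlg K M) : MDiff f := by
  obtain ⟨φ, hφ⟩ := hf
  exact hφ.mdifferentiable

theorem jH_mem_expAlg (K : Type*) [Field K] [Algebra K ℂ] : jH ∈ expAlg K 1 :=
  ⟨jqModC K, by rw [coeffMap_jqModC]; exact hasExp_jH⟩

theorem expAlg_mono {M m : ℕ} [NeZero M] [NeZero m] {f : ℍ → ℂ} (hf : f ∈ expAlg K M) :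
    f ∈ expAlg K (M * m) := by
  obtain ⟨φ, hφ⟩ := hf
  exact ⟨qExpand K m φ, by rw [coeffMap_qExpand]; exact hφ.qExpand⟩

end Fermat.Agent.ModFn
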