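import Fermat.Agent.ModFn.Analytic

set_option autoImplicit false

/-!
# Growth and holomorphy of functions with an expansion at infinity; period reduction
-/

namespace Fermat.Agent.ModFn

open UpperHalfPlane hiding I
open Complex Function HahnSeries ModularCurve Filter
open scoped Real Manifold Topology

theorem exists_ofPowerSeries {R : Type*} [CommRing R] {φ : LaurentSeries R}
    (h : ∀ n : ℤ, n < 0 → φ.coeff n = 0) :
    φ = HahnSeries.ofPowerSeries ℤ R (PowerSeries.mk fun n => φ.coeff n) := by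
  ext n
  rcases lt_or_ge n 0 with hn | hn
  · rw [h n hn, ofPowerSeries_coeff_of_neg _ hn]
  · lift n to ℕ using hn
    rw [HahnSeries.ofPowerSeries_apply_coeff, PowerSeries.coeff_mk]

namespace HasExp

variable {h : ℕ} {f g : ℍ → ℂ} {φ ψ : LaurentSeries ℂ}

/-- Bounded-at-infinity periodic holomorphic functions have an expansion. -/
theorem of_periodic [NeZero h] (hper : Periodic (f ∘ ofComplex) (h : ℝ))
    (hhol : MDiff f) (hbdd : IsBoundedAtImInfty f) :
    HasExp h f (HahnSeries.ofPowerSeries ℤ ℂ (qExpansion (h : ℝ) f)) := fun τ => by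
  rw [SumsTo.ofPowerSeries_iff]
  exact hasSum_qExpansion (by exact_mod_cast Nat.pos_of_neZero h) (by exact_mod_cast hper) hhol
    hbdd τ

theorem isBoundedAtImInfty [NeZero h] (hf : HasExp h f φ) (hφ : ∀ n : ℤ, n < 0 → φ.coeff n = 0) :
    IsBoundedAtImInfty f := by
  rw [exists_ofPowerSeries hφ] at hf
  refine isBoundedAtImInfty_of_hasSum_qExpansion (h := (h : ℝ))
    (by exact_mod_cast Nat.pos_of_neZero h) (c := fun n : ℕ => φ.coeff n) fun τ => ?_
  have := SumsTo.ofPowerSeries_iff.mp (hf τ)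
  simpa [qpar] using this

theorem mdifferentiable [NeZero h] (hf : HasExp h f φ) : MDiff f := by
  obtain ⟨G, hG, hfG⟩ := hf.exists_disc
  have hGd : DifferentiableOn ℂ G (Metric.ball 0 1) := by
    have := hG.differentiableOn
    rwa [← ENNReal.coe_one, Metric.eball_coe, NNReal.coe_one] at this
  rw [UpperHalfPlane.mdifferentiable_iff]
  have hq : Differentiable ℂ (Function.Periodic.qParam (h : ℝ)) := by
    unfold Function.Periodic.qParam
    fun_prop
  have h1 : DifferentiableOn ℂ (fun z : ℂ => Function.Periodic.qParam (h : ℝ) z ^ φ.order *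
      G (Function.Periodic.qParam (h : ℝ) z)) {z | 0 < z.im} := by
    refine DifferentiableOn.mul ?_ ?_
    · exact fun z hz => ((hq z).zpow (Or.inl (Complex.exp_ne_zero _))).differentiableWithinAt
    · refine hGd.comp hq.differentiableOn ?_
      intro z hz
      rw [mem_ball_zero_iff]
      exact norm_qpar_lt_one h ⟨z, hz⟩
  refine h1.congr ?_
  intro z hz
  rw [Function.comp_apply, hfG, ofComplex_apply_of_im_pos hz]
  rfl

theorem coe_qpar_tendsto (h : ℕ) [NeZero h] : Tendsto (fun τ : ℍ => qpar h τ) atImInfty (𝓝 0) :=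
  qParam_tendsto_atImInfty (by exact_mod_cast Nat.pos_of_neZero h)

/-- Limit at infinity of a function without polar part. -/
theorem tendsto [NeZero h] (hf : HasExp h f φ) (hφ : ∀ n : ℤ, n < 0 → φ.coeff n = 0) :
    Tendsto f atImInfty (𝓝 (φ.coeff 0)) := by
  have hcont : ∀ G : ℂ → ℂ, ∀ c : ℕ → ℂ, HasFPowerSeriesOnBall G
      (FormalMultilinearSeries.ofScalars ℂ c) 0 1 → Tendsto (fun τ => G (qpar h τ)) atImInfty
        (𝓝 (G 0)) := by
    intro G c hG
    have : ContinuousAt G 0 := hG.continuousOn.continuousAt (by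
      rw [← ENNReal.coe_one, Metric.eball_coe, NNReal.coe_one]
      exact Metric.ball_mem_nhds 0 one_pos)
    exact this.tendsto.comp (coe_qpar_tendsto h)
  -- the function `G q = ∑ φ_n q^n`
  classical
  have hch : ∀ q : ℂ, ∃ τ : ℍ, q ≠ 0 → ‖q‖ < 1 → qpar h τ = q := by
    intro q
    by_cases hq : q ≠ 0 ∧ ‖q‖ < 1
    · obtain ⟨τ, hτ⟩ := exists_qpar_eq h hq.1 hq.2
      exact ⟨τ, fun _ _ => hτ⟩
    · exact ⟨UpperHalfPlane.I, fun h1 h2 => absurd ⟨h1, h2⟩ hq⟩
  choose t ht using hch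
  let G : ℂ → ℂ := fun q => if q = 0 then φ.coeff 0 else f (t q)
  have hG := hasFPowerSeriesOnBall_of_hasSum (c := fun n : ℕ => φ.coeff n) (G := G) (by
    intro q hq hq1
    have h1 := hf (t q)
    rw [ht q hq hq1, exists_ofPowerSeries hφ, SumsTo.ofPowerSeries_iff] at h1
    simpa only [G, if_neg hq, PowerSeries.coeff_mk] using h1) (if_pos rfl)
  have h1 := hcont G _ hG
  have h2 : (fun τ => G (qpar h τ)) = f := by
    funext τ
    have hq := qpar_ne_zero h τ
    simp only [G, if_neg hq]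
    have h1 := hf (t (qpar h τ))
    rw [ht (qpar h τ) hq (norm_qpar_lt_one h τ)] at h1
    exact h1.unique (hf τ)
  rw [h2] at h1
  simpa [G] using h1

theorem isZeroAtImInfty [NeZero h] (hf : HasExp h f φ) (hφ : ∀ n : ℤ, n ≤ 0 → φ.coeff n = 0) :
    IsZeroAtImInfty f := by
  have := hf.tendsto (fun n hn => hφ n hn.le)
  rwa [hφ 0 le_rfl] at this

end HasExp

/-! ### Translation -/

/-- The primitive root of unity `exp(2πi/m)` as a unit. -/
noncomputable def zetaU (m : ℕ) : ℂˣ := Units.mk0 (Complex.exp (2 * π * I / m)) (Complex.exp_ne_zero _)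

theorem zetaU_val (m : ℕ) : (zetaU m : ℂ) = Complex.exp (2 * π * I / m) := rfl

theorem isPrimitiveRoot_zetaU (m : ℕ) [NeZero m] : IsPrimitiveRoot (zetaU m : ℂ) m :=
  Complex.isPrimitiveRoot_exp m (NeZero.ne m)

theorem zetaU_zpow (m : ℕ) (k : ℤ) : ((zetaU m ^ k : ℂˣ) : ℂ) = Complex.exp (2 * π * I * k / m) := by
  rw [Units.val_zpow_eq_zpow_val, zetaU_val, ← Complex.exp_int_mul]
  congr 1
  ring

theorem zetaU_zpow_eq_one_iff (m : ℕ) [NeZero m] (k : ℤ) : zetaU m ^ k = 1 ↔ (m : ℤ) ∣ k := by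
  rw [← (isPrimitiveRoot_zetaU m).zpow_eq_one_iff_dvd k, Units.ext_iff,
    Units.val_zpow_eq_zpow_val, Units.val_one]

/-- Upper triangular substitution `τ ↦ (aτ+b)/d`. -/
theorem qpar_affine (h d a : ℕ) [NeZero d] [NeZero h] (b : ℤ) {τ τ' : ℍ}
    (hτ : (τ' : ℂ) = (a * (τ : ℂ) + b) / d) :
    qpar h τ' = ((zetaU (h * d) ^ b : ℂˣ) : ℂ) * qpar (h * d) τ ^ a := by
  rw [qpar_def, qpar_def, zetaU_zpow, ← Complex.exp_nat_mul, ← Complex.exp_add, hτ]
  congr 1
  have hd : (d : ℂ) ≠ 0 := Nat.cast_ne_zero.mpr (NeZero.ne d)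
  have hh : (h : ℂ) ≠ 0 := Nat.cast_ne_zero.mpr (NeZero.ne h)
  push_cast
  field_simp
  ring

/-- Expansion of `f((aτ+b)/d)`. -/
theorem HasExp.affine {h d a : ℕ} [NeZero d] [NeZero h] [NeZero a] (b : ℤ) {f g : ℍ → ℂ}
    {φ : LaurentSeries ℂ} (hf : HasExp h f φ) (u : ℍ → ℍ)
    (hu : ∀ τ : ℍ, ((u τ : ℍ) : ℂ) = (a * (τ : ℂ) + b) / d) (hg : ∀ τ, g τ = f (u τ)) :
    HasExp (h * d) g (ModularCurve.qExpand ℂ a (twist (zetaU (h * d) ^ b) φ)) := fun τ => by
  rw [SumsTo.qExpand_iff, SumsTo.twist_iff, ← qpar_affine h d a b (hu τ), hg τ]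
  exact hf (u τ)

/-- Expansion of `f(τ + b)`. -/
theorem HasExp.translate {h : ℕ} [NeZero h] (b : ℤ) {f g : ℍ → ℂ}
    {φ : LaurentSeries ℂ} (hf : HasExp h f φ)
    (hg : ∀ τ : ℍ, g τ = f ((b : ℝ) +ᵥ τ)) :
    HasExp h g (twist (zetaU h ^ b) φ) := fun τ => by
  rw [SumsTo.twist_iff, hg τ]
  have h1 := qpar_affine h 1 1 b (τ := τ) (τ' := (b : ℝ) +ᵥ τ) (by
    rw [UpperHalfPlane.coe_vadd]; push_cast; ring)
  simp only [mul_one, pow_one] at h1
  rw [← h1]
  exact hf _

end Fermat.Agent.ModFn
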