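import Fermat.Agent.ModFn.HasExp

set_option autoImplicit false

/-!
# Analytic properties of functions with an expansion at infinity
-/

namespace Fermat.Agent.ModFn

open UpperHalfPlane hiding I
open Complex Function HahnSeries ModularCurve Filter
open scoped Real Manifold Topology

/-- A power series converging (to `G`) on the punctured unit disc is the Taylor series of `G`. -/
theorem hasFPowerSeriesOnBall_of_hasSum {c : ℕ → ℂ} {G : ℂ → ℂ}
    (h : ∀ q : ℂ, q ≠ 0 → ‖q‖ < 1 → HasSum (fun n => c n * q ^ n) (G q)) (h0 : G 0 = c 0) :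
    HasFPowerSeriesOnBall G (FormalMultilinearSeries.ofScalars ℂ c) 0 1 := by
  constructor
  · refine le_of_forall_lt_imp_le_of_dense fun r hr ↦ ?_
    rcases eq_or_ne r 0 with rfl | hr'
    · simp
    · lift r to NNReal using hr.ne_top
      have hr0 : (r : ℂ) ≠ 0 := by
        simpa using hr'
      have hr1 : ‖(r : ℂ)‖ < 1 := by simpa using hr
      apply FormalMultilinearSeries.le_radius_of_summable
      simpa [norm_mul, mul_comm, mul_left_comm, mul_assoc] using (h r hr0 hr1).summable.norm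
  · simp
  · intro y hy
    rw [← ENNReal.coe_one, Metric.eball_coe, NNReal.coe_one, mem_ball_zero_iff] at hy
    rcases eq_or_ne y 0 with rfl | hy'
    · rw [add_zero, h0]
      simpa +contextual [zero_pow_eq] using hasSum_ite_eq 0 (c 0)
    · rw [zero_add]
      simpa [mul_comm] using h y hy' hy

/-- Taylor series of a function holomorphic on the open unit disc. -/
theorem exists_hasSum_of_differentiableOn {G : ℂ → ℂ}
    (hG : DifferentiableOn ℂ G (Metric.ball 0 1)) :
    ∃ F : PowerSeries ℂ, F.constantCoeff = G 0 ∧ ∀ q : ℂ, ‖q‖ < 1 →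
      HasSum (fun n => F.coeff n * q ^ n) (G q) := by
  refine ⟨PowerSeries.mk fun n => ((n.factorial : ℂ))⁻¹ * iteratedDeriv n G 0, ?_, fun q hq => ?_⟩
  · rw [← PowerSeries.coeff_zero_eq_constantCoeff, PowerSeries.coeff_mk]
    simp
  · have := hasSum_taylorSeries_on_ball hG (z := q) (by simpa using hq)
    simp only [sub_zero, smul_eq_mul, PowerSeries.coeff_mk] at this ⊢
    have he : (fun n : ℕ => ((n.factorial : ℂ))⁻¹ * iteratedDeriv n G 0 * q ^ n) =
        fun n : ℕ => ((n.factorial : ℂ))⁻¹ * (q ^ n * iteratedDeriv n G 0) := by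
      funext n; ring
    rw [he]
    exact this

theorem hasSum_of_hasFPowerSeriesOnBall {c : ℕ → ℂ} {G : ℂ → ℂ}
    (hG : HasFPowerSeriesOnBall G (FormalMultilinearSeries.ofScalars ℂ c) 0 1) {q : ℂ}
    (hq : ‖q‖ < 1) : HasSum (fun n => c n * q ^ n) (G q) := by
  have h := hG.hasSum (y := q) (by
    rw [← ENNReal.coe_one, Metric.eball_coe, NNReal.coe_one, mem_ball_zero_iff]; exact hq)
  rw [zero_add] at h
  simpa [mul_comm] using h

namespace HasExp

variable {h : ℕ} {f g : ℍ → ℂ} {φ ψ : LaurentSeries ℂ}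

/-- Structure of a function with an expansion: a power of `q_h` times a holomorphic function on the
unit disc. -/
theorem exists_disc [NeZero h] (hf : HasExp h f φ) :
    ∃ G : ℂ → ℂ, HasFPowerSeriesOnBall G
      (FormalMultilinearSeries.ofScalars ℂ fun n => φ.powerSeriesPart.coeff n) 0 1 ∧
      ∀ τ, f τ = qpar h τ ^ φ.order * G (qpar h τ) := by
  classical
  have hch : ∀ q : ℂ, ∃ τ : ℍ, q ≠ 0 → ‖q‖ < 1 → qpar h τ = q := by
    intro q
    by_cases hq : q ≠ 0 ∧ ‖q‖ < 1
    · obtain ⟨τ, hτ⟩ := exists_qpar_eq h hq.1 hq.2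
      exact ⟨τ, fun _ _ => hτ⟩
    · exact ⟨UpperHalfPlane.I, fun h1 h2 => absurd ⟨h1, h2⟩ hq⟩
  choose t ht using hch
  let G : ℂ → ℂ := fun q => if q = 0 then φ.powerSeriesPart.coeff 0 else q ^ (-φ.order) * f (t q)
  refine ⟨G, hasFPowerSeriesOnBall_of_hasSum ?_ (if_pos rfl), ?_⟩
  · intro q hq hq1
    have h1 := hf (t q)
    rw [ht q hq hq1] at h1
    have h2 := (SumsTo.single (-φ.order) 1 q).mul hq h1
    rw [← LaurentSeries.ofPowerSeries_powerSeriesPart, SumsTo.ofPowerSeries_iff, one_mul] at h2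
    simpa only [G, if_neg hq] using h2
  · intro τ
    have hq := qpar_ne_zero h τ
    have hτ := ht (qpar h τ) hq (norm_qpar_lt_one h τ)
    have h1 := hf (t (qpar h τ))
    rw [hτ] at h1
    have h2 := (hf τ).unique h1
    simp only [G, if_neg hq]
    rw [← mul_assoc, ← zpow_add₀ hq, add_neg_cancel, zpow_zero, one_mul, h2]

/-- Converse: a power of `q_h` times a function holomorphic on the disc has an expansion. -/
theorem of_disc [NeZero h] {G : ℂ → ℂ} (hG : DifferentiableOn ℂ G (Metric.ball 0 1)) {m : ℤ}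
    (hf : ∀ τ, f τ = qpar h τ ^ m * G (qpar h τ)) :
    ∃ F : PowerSeries ℂ, F.constantCoeff = G 0 ∧
      HasExp h f (HahnSeries.single m 1 * HahnSeries.ofPowerSeries ℤ ℂ F) := by
  obtain ⟨F, hF0, hF⟩ := exists_hasSum_of_differentiableOn hG
  refine ⟨F, hF0, fun τ => ?_⟩
  have h1 := SumsTo.single m 1 (qpar h τ)
  have h2 := SumsTo.ofPowerSeries_iff.mpr (hF (qpar h τ) (norm_qpar_lt_one h τ))
  have h3 := h1.mul (qpar_ne_zero h τ) h2
  rw [one_mul, ← hf τ] at h3
  exact h3

/-- A Laurent series converging to zero on the punctured disc is zero. -/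
theorem eq_zero_of_zero [NeZero h] (hf : HasExp h 0 φ) : φ = 0 := by
  obtain ⟨G, hG, hfG⟩ := hf.exists_disc
  have hG0 : ∀ q : ℂ, q ≠ 0 → ‖q‖ < 1 → G q = 0 := by
    intro q hq hq1
    obtain ⟨τ, hτ⟩ := exists_qpar_eq h hq hq1
    have h1 := hfG τ
    rw [hτ, Pi.zero_apply] at h1
    rcases mul_eq_zero.mp h1.symm with h2 | h2
    · exact absurd h2 (zpow_ne_zero _ hq)
    · exact h2
  have h1 : ∀ᶠ q in 𝓝[≠] (0 : ℂ), G q = 0 := by
    rw [eventually_nhdsWithin_iff]
    filter_upwards [Metric.ball_mem_nhds (0 : ℂ) one_pos] with q hq hq0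
    exact hG0 q hq0 (by simpa using hq)
  have h2 : ∀ᶠ q in 𝓝 (0 : ℂ), G q = 0 := by
    have hcont : ContinuousAt G 0 := hG.continuousOn.continuousAt (by
      rw [← ENNReal.coe_one, Metric.eball_coe, NNReal.coe_one]
      exact Metric.ball_mem_nhds 0 one_pos)
    have := (hcont.eventuallyEq_nhds_iff_eventuallyEq_nhdsNE
      (continuousAt_const (y := (0 : ℂ)))).mp (by simpa [Filter.EventuallyEq] using h1)
    simpa [Filter.EventuallyEq] using this
  have h3 : HasFPowerSeriesAt (fun _ : ℂ => (0 : ℂ))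
      (FormalMultilinearSeries.ofScalars ℂ fun n => φ.powerSeriesPart.coeff n) 0 :=
    hG.hasFPowerSeriesAt.congr h2
  have h4 := h3.eq_zero
  have h5 : (fun n => φ.powerSeriesPart.coeff n) = 0 :=
    (FormalMultilinearSeries.ofScalars_series_eq_zero ℂ).mp h4
  rw [← LaurentSeries.powerSeriesPart_eq_zero]
  ext n
  simpa using congrFun h5 n

theorem unique [NeZero h] (hf : HasExp h f φ) (hf' : HasExp h f ψ) : φ = ψ := by
  rw [← sub_eq_zero]
  have h1 := hf.sub hf'
  rw [sub_self] at h1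
  exact eq_zero_of_zero h1

theorem eq_zero_iff [NeZero h] (hf : HasExp h f φ) : f = 0 ↔ φ = 0 := by
  constructor
  · rintro rfl; exact hf.eq_zero_of_zero
  · rintro rfl; exact hf.eq_of_same (zero h)

/-- Functions with an expansion form a domain. -/
theorem eq_zero_or_eq_zero [NeZero h] (hf : HasExp h f φ) (hg : HasExp h g ψ) (hfg : f * g = 0) :
    f = 0 ∨ g = 0 := by
  have h1 := hf.mul hg
  rw [hfg] at h1
  rw [hf.eq_zero_iff, hg.eq_zero_iff]
  exact mul_eq_zero.mp h1.eq_zero_of_zero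

/-- Inverse of a nowhere vanishing function with an expansion. -/
theorem inv [NeZero h] (hf : HasExp h f φ) (hne : ∀ τ, f τ ≠ 0) : HasExp h f⁻¹ φ⁻¹ := by
  have hφ : φ ≠ 0 := fun h0 => by
    have := hf.eq_zero_iff.mpr h0
    exact hne UpperHalfPlane.I (by rw [this]; rfl)
  obtain ⟨G, hG, hfG⟩ := hf.exists_disc
  have hG0 : G 0 = φ.coeff φ.order := by
    have := hasSum_of_hasFPowerSeriesOnBall hG (q := 0) (by simp)
    have h2 : HasSum (fun n : ℕ => φ.powerSeriesPart.coeff n * (0 : ℂ) ^ n)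
        (φ.powerSeriesPart.coeff 0) := by
      simpa +contextual [zero_pow_eq] using hasSum_ite_eq 0 (φ.powerSeriesPart.coeff 0)
    rw [this.unique h2, LaurentSeries.powerSeriesPart_coeff]
    simp
  have hGne : ∀ q ∈ Metric.ball (0 : ℂ) 1, G q ≠ 0 := by
    intro q hq
    rw [mem_ball_zero_iff] at hq
    rcases eq_or_ne q 0 with rfl | hq0
    · rw [hG0]
      exact HahnSeries.coeff_order_eq_zero.not.mpr hφ
    · obtain ⟨τ, hτ⟩ := exists_qpar_eq h hq0 hq
      intro h0
      apply hne τ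
      rw [hfG τ, hτ, h0, mul_zero]
  have hGd : DifferentiableOn ℂ G (Metric.ball 0 1) := by
    have := hG.differentiableOn
    rwa [← ENNReal.coe_one, Metric.eball_coe, NNReal.coe_one] at this
  obtain ⟨F, -, hF⟩ := of_disc (h := h) (f := f⁻¹) (m := -φ.order) (hGd.inv hGne) (fun τ => by
    rw [Pi.inv_apply, hfG τ, mul_inv, zpow_neg, Pi.inv_apply])
  have h1 := hf.mul hF
  have h2 : f * f⁻¹ = 1 := by
    funext τ
    simp [hne τ]
  rw [h2] at h1
  have h3 := h1.unique (one h)
  rw [eq_inv_of_mul_eq_one_right h3] at hF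
  exact hF

end HasExp

end Fermat.Agent.ModFn
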