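import Fermat.Agent.ModFn.Contract
import Fermat.Prelude.Def_ModularCurve_JqCoeff

set_option autoImplicit false

/-!
# The analytic discriminant and `j` have the formal expansions of the Prelude
-/

namespace Fermat.Agent.ModFn

open UpperHalfPlane hiding I
open Complex Function HahnSeries ModularCurve Filter
open scoped Real Manifold Topology

theorem iteratedDeriv_tendsto {ι : Type*} {φ : Filter ι} {F : ι → ℂ → ℂ} {f : ℂ → ℂ} {U : Set ℂ}
    (hU : IsOpen U) (hF : ∀ n, DifferentiableOn ℂ (F n) U)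
    (hf : TendstoLocallyUniformlyOn F f φ U) (k : ℕ) :
    TendstoLocallyUniformlyOn (fun n => iteratedDeriv k (F n)) (iteratedDeriv k f) φ U ∧
      ∀ n, DifferentiableOn ℂ (iteratedDeriv k (F n)) U := by
  induction k with
  | zero => simpa [iteratedDeriv_zero] using ⟨hf, hF⟩
  | succ k ih =>
    simp only [iteratedDeriv_succ]
    exact ⟨ih.1.deriv (Eventually.of_forall ih.2) hU, fun n => (ih.2 n).deriv hU⟩

/-- The Taylor coefficients at `0`. -/
noncomputable def taylorPS (G : ℂ → ℂ) : PowerSeries ℂ :=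
  PowerSeries.mk fun n => ((n.factorial : ℂ))⁻¹ * iteratedDeriv n G 0

theorem taylorPS_hasSum {G : ℂ → ℂ} (hG : DifferentiableOn ℂ G (Metric.ball 0 1)) {q : ℂ}
    (hq : ‖q‖ < 1) : HasSum (fun n => (taylorPS G).coeff n * q ^ n) (G q) := by
  have := hasSum_taylorSeries_on_ball hG (z := q) (by simpa using hq)
  simp only [sub_zero, smul_eq_mul] at this
  have he : (fun n : ℕ => (taylorPS G).coeff n * q ^ n) =
      fun n : ℕ => ((n.factorial : ℂ))⁻¹ * (q ^ n * iteratedDeriv n G 0) := by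
    funext n
    rw [taylorPS, PowerSeries.coeff_mk]
    ring
  rw [he]
  exact this

theorem hasSum_at_zero (c : ℕ → ℂ) : HasSum (fun n : ℕ => c n * (0 : ℂ) ^ n) (c 0) := by
  simpa +contextual [zero_pow_eq] using hasSum_ite_eq 0 (c 0)

theorem powerSeries_eq_of_hasSum {F H : PowerSeries ℂ} {G : ℂ → ℂ}
    (hF : ∀ q : ℂ, ‖q‖ < 1 → HasSum (fun n => F.coeff n * q ^ n) (G q))
    (hH : ∀ q : ℂ, ‖q‖ < 1 → HasSum (fun n => H.coeff n * q ^ n) (G q)) : F = H := by
  have h0 : ∀ E : PowerSeries ℂ, (∀ q : ℂ, ‖q‖ < 1 → HasSum (fun n => E.coeff n * q ^ n) (G q)) →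
      G 0 = E.coeff 0 := by
    intro E hE
    exact (hE 0 (by simp)).unique (hasSum_at_zero _)
  have h1 := hasFPowerSeriesOnBall_of_hasSum (fun q _ hq => hF q hq) (h0 F hF)
  have h2 := hasFPowerSeriesOnBall_of_hasSum (fun q _ hq => hH q hq) (h0 H hH)
  have h3 := h1.hasFPowerSeriesAt.eq_formalMultilinearSeries h2.hasFPowerSeriesAt
  have h4 := (FormalMultilinearSeries.ofScalars_series_eq_iff ℂ _ _).mp h3
  ext n
  exact congrFun h4 n

/-- Evaluating a finite product of power series `1 - X^(i+1)`. -/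
theorem hasSum_prod_one_sub (s : Finset ℕ) {q : ℂ} :
    HasSum (fun n => (∏ i ∈ s, (1 - PowerSeries.X ^ (i + 1) : PowerSeries ℂ)).coeff n * q ^ n)
      (∏ i ∈ s, (1 - q ^ (i + 1))) := by
  rcases eq_or_ne q 0 with rfl | hq
  · have h2 := hasSum_at_zero
      (fun n => (∏ i ∈ s, (1 - PowerSeries.X ^ (i + 1) : PowerSeries ℂ)).coeff n)
    convert h2 using 1
    rw [PowerSeries.coeff_zero_eq_constantCoeff, map_prod]
    simp
  · rw [← SumsTo.ofPowerSeries_iff, map_prod]
    refine SumsTo.prod hq s fun i _ => ?_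
    rw [map_sub, map_one, map_pow, HahnSeries.ofPowerSeries_X, HahnSeries.single_pow]
    have h1 := (SumsTo.one q).sub (SumsTo.single ((i + 1) • (1 : ℤ)) (1 ^ (i + 1)) q)
    convert h1 using 2
    simp only [one_pow, one_mul, nsmul_eq_mul, mul_one]
    rw [zpow_natCast]

/-- Taylor expansion of the Euler product. -/
theorem taylorPS_etaProd :
    taylorPS (fun q => ∏' n : ℕ, (1 - q ^ (n + 1))) = etaProd.map (Int.castRingHom ℂ) := by
  have hpent : etaProd = PowerSeries.pentagonalSeries ℤ :=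
    PowerSeries.WithPiTopology.tprod_one_sub_X_pow ℤ
  ext k
  have hlim := ModularForm.multipliableLocallyUniformlyOn_one_sub_pow.hasProdLocallyUniformlyOn
  have hd : ∀ s : Finset ℕ, DifferentiableOn ℂ (fun q : ℂ => ∏ i ∈ s, (1 - q ^ (i + 1)))
      (Metric.ball 0 1) := fun s => by fun_prop
  have h1 := (iteratedDeriv_tendsto Metric.isOpen_ball hd hlim k).1.tendsto_at
    (Metric.mem_ball_self one_pos)
  have h2 : ∀ s : Finset ℕ, ((k.factorial : ℂ))⁻¹ *
      iteratedDeriv k (fun q : ℂ => ∏ i ∈ s, (1 - q ^ (i + 1))) 0 =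
      (∏ i ∈ s, (1 - PowerSeries.X ^ (i + 1) : PowerSeries ℂ)).coeff k := by
    intro s
    have h3 := powerSeries_eq_of_hasSum (fun q hq => taylorPS_hasSum (hd s) hq)
      (fun q _ => hasSum_prod_one_sub s (q := q))
    rw [← h3, taylorPS, PowerSeries.coeff_mk]
  have h4 := h1.const_mul ((k.factorial : ℂ))⁻¹
  simp only [h2] at h4
  have h5 : Tendsto (fun s : Finset ℕ => (∏ i ∈ s, (1 - PowerSeries.X ^ (i + 1) :
      PowerSeries ℂ)).coeff k) atTop (𝓝 ((PowerSeries.pentagonalSeries ℂ).coeff k)) :=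
    tendsto_nhds_of_eventually_eq (PowerSeries.coeff_prod_one_sub_X_pow_eventually_eq ℂ k)
  rw [taylorPS, PowerSeries.coeff_mk]
  rw [tendsto_nhds_unique h4 h5, hpent, PowerSeries.coeff_map]
  classical
  by_cases hk : k ∈ Set.range pentagonal
  · obtain ⟨m, rfl⟩ := hk
    rw [PowerSeries.coeff_pentagonalSeries_pentagonal, PowerSeries.coeff_pentagonalSeries_pentagonal]
    simp
  · rw [PowerSeries.coeff_pentagonalSeries_eq_zero _ hk,
      PowerSeries.coeff_pentagonalSeries_eq_zero _ hk, map_zero]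

end Fermat.Agent.ModFn
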