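import Fermat.Agent.ModFn.SumsTo
import Fermat.Prelude.Def_ModularCurve_X0
import Fermat.Prelude.Def_ModularCurve_LaurentCoeff

set_option autoImplicit false

/-!
# Functions on the upper half plane with a convergent Laurent expansion in `q_h = exp(2πiτ/h)`
-/

namespace Fermat.Agent.ModFn

open UpperHalfPlane hiding I
open Complex Function HahnSeries ModularCurve
open scoped Real

/-- The local parameter `q_h = exp (2πiτ/h)` at infinity. -/
noncomputable def qpar (h : ℕ) (τ : ℍ) : ℂ := Function.Periodic.qParam (h : ℝ) (τ : ℂ)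

theorem qpar_def (h : ℕ) (τ : ℍ) : qpar h τ = Complex.exp (2 * π * I * τ / h) := by
  simp [qpar, Function.Periodic.qParam]

theorem qpar_ne_zero (h : ℕ) (τ : ℍ) : qpar h τ ≠ 0 := Complex.exp_ne_zero _

theorem norm_qpar_lt_one (h : ℕ) [NeZero h] (τ : ℍ) : ‖qpar h τ‖ < 1 :=
  Function.Periodic.norm_qParam_lt_one (by exact_mod_cast Nat.pos_of_neZero h) τ.im_pos

theorem qpar_zpow (h : ℕ) (τ : ℍ) (n : ℤ) :
    qpar h τ ^ n = Complex.exp (2 * π * I * n * τ / h) := by
  rw [qpar_def, ← Complex.exp_int_mul]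
  congr 1
  ring

theorem qpar_pow (h m : ℕ) [NeZero m] [NeZero h] (τ : ℍ) : qpar (h * m) τ ^ m = qpar h τ := by
  rw [qpar_def, qpar_def, ← Complex.exp_nat_mul]
  congr 1
  have hm : (m : ℂ) ≠ 0 := Nat.cast_ne_zero.mpr (NeZero.ne m)
  have hh : (h : ℂ) ≠ 0 := Nat.cast_ne_zero.mpr (NeZero.ne h)
  push_cast
  field_simp

/-- Every nonzero complex number of norm `< 1` is a value of `qpar h`. -/
theorem exists_qpar_eq (h : ℕ) [NeZero h] {q : ℂ} (hq : q ≠ 0) (hq1 : ‖q‖ < 1) :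
    ∃ τ : ℍ, qpar h τ = q := by
  have hh : (0 : ℝ) < h := by exact_mod_cast Nat.pos_of_neZero h
  have him := Function.Periodic.im_invQParam_pos_of_norm_lt_one hh hq1 hq
  exact ⟨⟨_, him⟩, Function.Periodic.qParam_right_inv hh.ne' hq⟩

/-- `HasExp h f φ`: `f τ = ∑ φ_n q_h^n` for every `τ` in the upper half plane. -/
def HasExp (h : ℕ) (f : ℍ → ℂ) (φ : LaurentSeries ℂ) : Prop :=
  ∀ τ : ℍ, SumsTo φ (qpar h τ) (f τ)

namespace HasExp

variable {h : ℕ} {f g : ℍ → ℂ} {φ ψ : LaurentSeries ℂ}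

theorem eq_of_same (hf : HasExp h f φ) (hg : HasExp h g φ) : f = g :=
  funext fun τ => (hf τ).unique (hg τ)

theorem congr (hf : HasExp h f φ) (hfg : f = g) (hφ : φ = ψ) : HasExp h g ψ := by
  subst hfg hφ; exact hf

theorem zero (h : ℕ) : HasExp h 0 0 := fun τ => SumsTo.zero _

theorem const (h : ℕ) (c : ℂ) : HasExp h (fun _ => c) (HahnSeries.C c) := fun τ => SumsTo.C c _

theorem one (h : ℕ) : HasExp h 1 1 := fun τ => SumsTo.one _

theorem add (hf : HasExp h f φ) (hg : HasExp h g ψ) : HasExp h (f + g) (φ + ψ) :=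
  fun τ => (hf τ).add (hg τ)

theorem neg (hf : HasExp h f φ) : HasExp h (-f) (-φ) := fun τ => (hf τ).neg

theorem sub (hf : HasExp h f φ) (hg : HasExp h g ψ) : HasExp h (f - g) (φ - ψ) :=
  fun τ => (hf τ).sub (hg τ)

theorem mul (hf : HasExp h f φ) (hg : HasExp h g ψ) : HasExp h (f * g) (φ * ψ) :=
  fun τ => (hf τ).mul (qpar_ne_zero h τ) (hg τ)

theorem smul (c : ℂ) (hf : HasExp h f φ) : HasExp h (c • f) (HahnSeries.C c * φ) :=
  (const h c).mul hf

theorem pow (hf : HasExp h f φ) (n : ℕ) : HasExp h (f ^ n) (φ ^ n) :=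
  fun τ => (hf τ).pow (qpar_ne_zero h τ) n

theorem sum {ι : Type*} (u : Finset ι) {f : ι → ℍ → ℂ} {φ : ι → LaurentSeries ℂ}
    (hf : ∀ i ∈ u, HasExp h (f i) (φ i)) : HasExp h (∑ i ∈ u, f i) (∑ i ∈ u, φ i) := fun τ => by
  rw [Finset.sum_apply]
  exact SumsTo.sum u fun i hi => hf i hi τ

theorem prod {ι : Type*} (u : Finset ι) {f : ι → ℍ → ℂ} {φ : ι → LaurentSeries ℂ}
    (hf : ∀ i ∈ u, HasExp h (f i) (φ i)) : HasExp h (∏ i ∈ u, f i) (∏ i ∈ u, φ i) := fun τ => by
  rw [Finset.prod_apply]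
  exact SumsTo.prod (qpar_ne_zero h τ) u fun i hi => hf i hi τ

end HasExp

/-! ### Change of variable -/

theorem SumsTo.qExpand_iff {a : ℕ} [NeZero a] {φ : LaurentSeries ℂ} {q s : ℂ} :
    SumsTo (qExpand ℂ a φ) q s ↔ SumsTo φ (q ^ a) s := by
  have hinj : Function.Injective (fun n : ℤ => (a : ℤ) * n) :=
    mul_right_injective₀ (by exact_mod_cast NeZero.ne a)
  rw [SumsTo, SumsTo, ← hinj.hasSum_iff]
  · refine iff_of_eq (congrArg₂ HasSum ?_ rfl)
    funext n
    simp only [Function.comp_apply]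
    rw [qExpand_coeff_mul, zpow_mul, zpow_natCast]
  · intro n hn
    rw [qExpand_coeff_of_not_dvd, zero_mul]
    rintro ⟨m, rfl⟩
    exact hn ⟨m, rfl⟩

/-- Passing from width `h` to width `h * m`. -/
theorem HasExp.qExpand {h m : ℕ} [NeZero m] [NeZero h] {f : ℍ → ℂ} {φ : LaurentSeries ℂ}
    (hf : HasExp h f φ) : HasExp (h * m) f (ModularCurve.qExpand ℂ m φ) := fun τ => by
  rw [SumsTo.qExpand_iff, qpar_pow]
  exact hf τ

section Twist

variable {R : Type*} [CommRing R]

/-- Substitution `q ↦ ζ q` in a Laurent series. -/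
noncomputable def twist (ζ : Rˣ) : LaurentSeries R →+* LaurentSeries R where
  toFun φ := ⟨fun n => ((ζ ^ n : Rˣ) : R) * φ.coeff n, φ.isPWO_support.mono fun n hn h0 => hn (by
    simp only [h0, mul_zero])⟩
  map_zero' := by ext n; simp
  map_one' := by
    ext n
    simp only [HahnSeries.coeff_one]
    split_ifs with h <;> simp [h]
  map_add' x y := by ext n; simp [mul_add]
  map_mul' x y := by
    classical
    ext n
    simp only [HahnSeries.coeff_mul, Finset.mul_sum]
    have hsupp : ∀ z : LaurentSeries R, ∀ m : ℤ, ((ζ ^ m : Rˣ) : R) * z.coeff m ≠ 0 ↔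
        z.coeff m ≠ 0 := fun z m => by
      rw [Ne, Units.mul_right_eq_zero]
    refine Finset.sum_congr ?_ fun ij hij => ?_
    · ext ij
      simp only [Finset.mem_antidiagonal, HahnSeries.mem_support, hsupp]
    · rw [Finset.mem_antidiagonal] at hij
      rw [← hij.2.2, zpow_add, Units.val_mul]
      ring

@[simp] theorem twist_coeff (ζ : Rˣ) (φ : LaurentSeries R) (n : ℤ) :
    (twist ζ φ).coeff n = ((ζ ^ n : Rˣ) : R) * φ.coeff n := rfl

theorem twist_coeff_eq_zero_iff (ζ : Rˣ) (φ : LaurentSeries R) (n : ℤ) :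
    (twist ζ φ).coeff n = 0 ↔ φ.coeff n = 0 := by
  rw [twist_coeff, Units.mul_right_eq_zero]

theorem twist_twist (ζ ξ : Rˣ) (φ : LaurentSeries R) :
    twist ζ (twist ξ φ) = twist (ζ * ξ) φ := by
  ext n
  simp only [twist_coeff, mul_zpow, Units.val_mul, mul_assoc]

@[simp] theorem twist_one (φ : LaurentSeries R) : twist 1 φ = φ := by
  ext n; simp

theorem twist_injective (ζ : Rˣ) : Function.Injective (twist ζ) := fun x y h => by
  have := congrArg (twist ζ⁻¹) h
  simpa [twist_twist] using this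

theorem twist_order (ζ : Rˣ) (φ : LaurentSeries R) : (twist ζ φ).order = φ.order := by
  have hsupp : (twist ζ φ).support = φ.support := by
    ext n
    simp only [HahnSeries.mem_support, Ne, twist_coeff_eq_zero_iff]
  by_cases h0 : φ = 0
  · subst h0; simp
  · have h1 : twist ζ φ ≠ 0 := fun h => h0 (twist_injective ζ (h.trans (map_zero _).symm))
    rw [HahnSeries.order_of_ne h1, HahnSeries.order_of_ne h0]
    congr 1

end Twist

theorem SumsTo.twist_iff {ζ : ℂˣ} {φ : LaurentSeries ℂ} {q s : ℂ} :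
    SumsTo (twist ζ φ) q s ↔ SumsTo φ (ζ * q) s := by
  rw [SumsTo, SumsTo]
  refine iff_of_eq (congrArg₂ HasSum ?_ rfl)
  funext n
  rw [twist_coeff, mul_zpow, Units.val_zpow_eq_zpow_val]
  ring

end Fermat.Agent.ModFn
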