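import Fermat.Agent.ModFn.ExpAlg
import Fermat.Agent.LevelOne.Basic

set_option autoImplicit false

/-!
# Invariant functions are polynomials in `j`
-/

namespace Fermat.Agent.ModFn

open UpperHalfPlane hiding I
open Complex Function HahnSeries ModularCurve Filter ModularForm EisensteinSeries
open scoped Real Manifold Topology MatrixGroups ModularForm
open Fermat.Agent.LevelOne

theorem isLevelOne_zero_of_invariant {f : ℍ → ℂ} (hinv : ∀ (γ : SL(2, ℤ)) (τ : ℍ), f (γ • τ) = f τ)
    (hhol : MDiff f) (hbdd : IsBoundedAtImInfty f) : IsLevelOne 0 f := by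
  refine ⟨hhol, hbdd, fun γ => ?_⟩
  funext τ
  rw [SL_slash_apply, hinv]
  simp

/-- A level one invariant function without polar part is constant. -/
theorem eq_const_of_invariant {f : ℍ → ℂ} {φ : LaurentSeries ℂ} (hf : HasExp 1 f φ)
    (hinv : ∀ (γ : SL(2, ℤ)) (τ : ℍ), f (γ • τ) = f τ) (h0 : ∀ m : ℤ, m < 0 → φ.coeff m = 0) :
    (∀ τ, f τ = φ.coeff 0) ∧ φ = HahnSeries.C (φ.coeff 0) := by
  obtain ⟨c, hc⟩ := (isLevelOne_zero_of_invariant hinv hf.mdifferentiable
    (hf.isBoundedAtImInfty h0)).eq_const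
  have h1 : HasExp 1 f (HahnSeries.C c) := by
    rw [hc]
    exact HasExp.const 1 c
  have h2 := hf.unique h1
  have h3 : φ.coeff 0 = c := by rw [h2]; simp
  rw [h3]
  exact ⟨fun τ => by rw [hc]; rfl, h2⟩

section

variable {O : Type*} [CommRing O]

theorem jqModC_pow_eq (n : ℕ) : jqModC O ^ n = HahnSeries.single (-(n : ℤ)) 1 *
    HahnSeries.ofPowerSeries ℤ O ((jNum.map (Int.castRingHom O)) ^ n) := by
  rw [jqModC, mul_pow, HahnSeries.single_pow, one_pow, ← map_pow]
  congr 2
  simp

theorem jqModC_pow_coeff_self (n : ℕ) : (jqModC O ^ n).coeff (-(n : ℤ)) = 1 := by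
  rw [jqModC_pow_eq]
  have := HahnSeries.coeff_single_mul_add (r := (1 : O)) (x := HahnSeries.ofPowerSeries ℤ O
    ((jNum.map (Int.castRingHom O)) ^ n)) (a := 0) (b := -(n : ℤ))
  rw [zero_add, one_mul] at this
  rw [this]
  have h2 := HahnSeries.ofPowerSeries_apply_coeff (Γ := ℤ)
    ((jNum.map (Int.castRingHom O)) ^ n) 0
  rw [Nat.cast_zero] at h2
  rw [h2, PowerSeries.coeff_zero_eq_constantCoeff, map_pow]
  have h3 : PowerSeries.constantCoeff (jNum.map (Int.castRingHom O)) = 1 := by
    rw [← PowerSeries.coeff_zero_eq_constantCoeff_apply, PowerSeries.coeff_map,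
      PowerSeries.coeff_zero_eq_constantCoeff_apply, constantCoeff_jNum, map_one]
  rw [h3, one_pow]

theorem jqModC_pow_coeff_of_lt (n : ℕ) {m : ℤ} (hm : m < -(n : ℤ)) :
    (jqModC O ^ n).coeff m = 0 := by
  rw [jqModC_pow_eq]
  have := HahnSeries.coeff_single_mul_add (r := (1 : O)) (x := HahnSeries.ofPowerSeries ℤ O
    ((jNum.map (Int.castRingHom O)) ^ n)) (a := m + n) (b := -(n : ℤ))
  rw [add_neg_cancel_right, one_mul] at this
  rw [this, ofPowerSeries_coeff_of_neg]
  omega

theorem hasExp_eval₂ (i : O →+* ℂ) (P : Polynomial O) :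
    HasExp 1 (fun τ => P.eval₂ i (jH τ))
      (coeffMap i (P.eval₂ HahnSeries.C (jqModC O))) := by
  induction P using Polynomial.induction_on' with
  | add p q hp hq =>
    have h1 := hp.add hq
    refine h1.congr ?_ ?_
    · funext τ
      simp [Polynomial.eval₂_add]
    · rw [Polynomial.eval₂_add, map_add]
  | monomial n a =>
    have h1 := (HasExp.const 1 (i a)).mul (hasExp_jH.pow n)
    refine h1.congr ?_ ?_
    · funext τ
      simp [Polynomial.eval₂_monomial]
    · rw [Polynomial.eval₂_monomial, map_mul, map_pow, coeffMap_jqModC]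
      congr 1
      rw [HahnSeries.C_apply, HahnSeries.C_apply, coeffMap_single]

/-- **Level one lemma.** A level one invariant function with an expansion with coefficients in (the
image of) `O` and a pole of order at most `n` is a polynomial of degree `≤ n` over `O` in `j`. -/
theorem exists_polynomial_of_invariant (i : O →+* ℂ) (hi : Function.Injective i) (n : ℕ) :
    ∀ {f : ℍ → ℂ} {φ : LaurentSeries O}, HasExp 1 f (coeffMap i φ) →
      (∀ (γ : SL(2, ℤ)) (τ : ℍ), f (γ • τ) = f τ) → (∀ m : ℤ, m < -(n : ℤ) → φ.coeff m = 0) →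
      ∃ P : Polynomial O, P.natDegree ≤ n ∧ (∀ τ, f τ = P.eval₂ i (jH τ)) ∧
        φ = P.eval₂ HahnSeries.C (jqModC O) := by
  induction n with
  | zero =>
    intro f φ hf hinv h0
    obtain ⟨h1, h2⟩ := eq_const_of_invariant hf hinv (fun m hm => by
      rw [coeffMap_coeff, h0 m (by simpa using hm), map_zero])
    refine ⟨Polynomial.C (φ.coeff 0), by simp, fun τ => ?_, ?_⟩
    · rw [h1 τ, coeffMap_coeff, Polynomial.eval₂_C]
    · apply coeffMap_injective hi
      rw [h2, Polynomial.eval₂_C, HahnSeries.C_apply, HahnSeries.C_apply, coeffMap_single,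
        coeffMap_coeff]
  | succ n ih =>
    intro f φ hf hinv h0
    obtain ⟨a, ha⟩ : ∃ a : O, a = φ.coeff (-((n + 1 : ℕ) : ℤ)) := ⟨_, rfl⟩
    have h1 := hasExp_eval₂ i (Polynomial.monomial (n + 1) a)
    have h2 := hf.sub h1
    rw [← map_sub] at h2
    obtain ⟨P, hP1, hP2, hP3⟩ := ih h2 (fun γ τ => by
      simp only [Pi.sub_apply, hinv, jH_smul]) (fun m hm => by
      rw [HahnSeries.coeff_sub, Polynomial.eval₂_monomial, HahnSeries.C_mul_eq_smul,
        HahnSeries.coeff_smul, smul_eq_mul]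
      rcases lt_or_eq_of_le (show m ≤ -((n + 1 : ℕ) : ℤ) by push_cast; omega) with h | h
      · rw [h0 m h, jqModC_pow_coeff_of_lt _ h, mul_zero, sub_zero]
      · rw [h, jqModC_pow_coeff_self, mul_one, ha, sub_self])
    refine ⟨P + Polynomial.monomial (n + 1) a, ?_, fun τ => ?_, ?_⟩
    · refine (Polynomial.natDegree_add_le _ _).trans (max_le (hP1.trans n.le_succ) ?_)
      exact Polynomial.natDegree_monomial_le _
    · rw [Polynomial.eval₂_add, ← hP2 τ]
      simp
    · rw [Polynomial.eval₂_add, ← hP3]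
      simp

end

end Fermat.Agent.ModFn
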