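import Fermat.Agent.ModFn.EtaExp
import Fermat.Agent.LevelOne.Separation

set_option autoImplicit false

/-!
# The `j`-function on the upper half plane and its expansion
-/

namespace Fermat.Agent.ModFn

open UpperHalfPlane hiding I
open Complex Function HahnSeries ModularCurve Filter ModularForm EisensteinSeries
open scoped Real Manifold Topology MatrixGroups ModularForm

theorem hasExp_coe {k : ℤ} (f : ModularForm 𝒮ℒ k) :
    HasExp 1 f (HahnSeries.ofPowerSeries ℤ ℂ (qExpansion 1 f)) := fun τ => by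
  rw [SumsTo.ofPowerSeries_iff]
  have := ModularForm.hasSum_qExpansion f one_pos one_mem_strictPeriods_SL τ
  simpa [qpar] using this

theorem qExpansion_E₄ : qExpansion 1 E₄ = eisenstein4.map (Int.castRingHom ℂ) := by
  ext m
  rw [PowerSeries.coeff_map, eisenstein4, PowerSeries.coeff_mk]
  rw [show (qExpansion 1 E₄).coeff m = _ from E_qExpansion_coeff _ ⟨2, rfl⟩ m]
  split_ifs with hm
  · simp
  · rw [show bernoulli 4 = -1 / 30 by decide +kernel, ArithmeticFunction.sigma_apply]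
    push_cast
    norm_num

theorem hasExp_E₄ :
    HasExp 1 E₄ (HahnSeries.ofPowerSeries ℤ ℂ (eisenstein4.map (Int.castRingHom ℂ))) := by
  rw [← qExpansion_E₄]
  exact hasExp_coe E₄

theorem hasExp_discriminant :
    HasExp 1 discriminant (HahnSeries.single 1 1 *
      HahnSeries.ofPowerSeries ℤ ℂ (dedekindEtaUnit.map (Int.castRingHom ℂ))) := fun τ => by
  have hq : qpar 1 τ = Function.Periodic.qParam 1 (τ : ℂ) := by simp [qpar]
  have hq1 : ‖qpar 1 τ‖ < 1 := norm_qpar_lt_one 1 τ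
  have h1 : SumsTo (HahnSeries.ofPowerSeries ℤ ℂ (etaProd.map (Int.castRingHom ℂ))) (qpar 1 τ)
      (∏' n : ℕ, (1 - qpar 1 τ ^ (n + 1))) := by
    rw [SumsTo.ofPowerSeries_iff, ← taylorPS_etaProd]
    exact taylorPS_hasSum differentiableOn_tprod_one_sub_pow hq1
  obtain ⟨P, hP⟩ : ∃ P : PowerSeries ℂ, P = etaProd.map (Int.castRingHom ℂ) := ⟨_, rfl⟩
  obtain ⟨e, he⟩ : ∃ e : ℂ, e = ∏' n : ℕ, (1 - qpar 1 τ ^ (n + 1)) := ⟨_, rfl⟩
  obtain ⟨m, hm⟩ : ∃ m : ℕ, m = 24 := ⟨_, rfl⟩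
  rw [← hP, ← he] at h1
  have h2 := h1.pow (qpar_ne_zero 1 τ) m
  have h3 := (SumsTo.single 1 1 (qpar 1 τ)).mul (qpar_ne_zero 1 τ) h2
  rw [← map_pow, one_mul, zpow_one] at h3
  have h4 : discriminant τ = qpar 1 τ * (∏' n : ℕ, (1 - qpar 1 τ ^ (n + 1))) ^ 24 := by
    rw [discriminant_eq_q_prod, hq, (multipliable_one_sub_pow (hq ▸ hq1)).tprod_pow]
  rw [h4, ← he, ← hm, dedekindEtaUnit, map_pow, ← hP, ← hm]
  exact h3

/-- The `j`-function. -/
noncomputable def jH : ℍ → ℂ := fun τ => E₄ τ ^ 3 / discriminant τ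

theorem jH_apply (τ : ℍ) : jH τ = E₄ τ ^ 3 / discriminant τ := rfl

theorem jH_mul_discriminant (τ : ℍ) : jH τ * discriminant τ = E₄ τ ^ 3 := by
  rw [jH_apply, div_mul_cancel₀ _ (discriminant_ne_zero τ)]

theorem jH_sub_1728 (τ : ℍ) : (jH τ - 1728) * discriminant τ = E₆ τ ^ 2 := by
  rw [sub_mul, jH_mul_discriminant]
  have := discriminant_eq_E₄_cube_sub_E₆_sq τ
  rw [this]; ring

/-- The analytic `j` has the formal expansion `jqModC`. -/
theorem hasExp_jH : HasExp 1 jH (jqModC ℂ) := by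
  have h1 := (hasExp_E₄.pow 3).mul (hasExp_discriminant.inv discriminant_ne_zero)
  have hcast : (dedekindEtaUnit.map (Int.castRingHom ℂ)) *
      (dedekindEtaUnitInv.map (Int.castRingHom ℂ)) = 1 := by
    rw [← map_mul, dedekindEtaUnit_mul_inv, map_one]
  refine h1.congr ?_ ?_
  · funext τ
    rw [jH_apply, div_eq_mul_inv]
    rfl
  · rw [jqModC, jNum, map_mul, map_pow, map_mul, map_pow, mul_inv]
    have h2 : (HahnSeries.single (1 : ℤ) (1 : ℂ))⁻¹ = HahnSeries.single (-1) 1 := by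
      rw [inv_eq_of_mul_eq_one_right]
      rw [HahnSeries.single_mul_single, add_neg_cancel, one_mul]
      rfl
    have h3 : ((HahnSeries.ofPowerSeries ℤ ℂ) (dedekindEtaUnit.map (Int.castRingHom ℂ)))⁻¹ =
        (HahnSeries.ofPowerSeries ℤ ℂ) (dedekindEtaUnitInv.map (Int.castRingHom ℂ)) := by
      apply inv_eq_of_mul_eq_one_right
      rw [← map_mul, hcast, map_one]
    rw [h2, h3]
    ring

theorem E₄_smul (γ : SL(2, ℤ)) (τ : ℍ) : E₄ (γ • τ) = denom γ τ ^ (4 : ℤ) * E₄ τ :=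
  SlashInvariantForm.slash_action_eqn'' (Γ := 𝒮ℒ) E₄ (γ := (γ : GL (Fin 2) ℝ)) ⟨γ, rfl⟩ τ

theorem E₆_smul (γ : SL(2, ℤ)) (τ : ℍ) : E₆ (γ • τ) = denom γ τ ^ (6 : ℤ) * E₆ τ :=
  SlashInvariantForm.slash_action_eqn'' (Γ := 𝒮ℒ) E₆ (γ := (γ : GL (Fin 2) ℝ)) ⟨γ, rfl⟩ τ

theorem discriminant_smul (γ : SL(2, ℤ)) (τ : ℍ) :
    discriminant (γ • τ) = denom γ τ ^ (12 : ℤ) * discriminant τ :=
  SlashInvariantForm.slash_action_eqn'' (Γ := 𝒮ℒ) CuspForm.discriminant (γ := (γ : GL (Fin 2) ℝ)) ⟨γ, rfl⟩ τ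

theorem jH_smul (γ : SL(2, ℤ)) (τ : ℍ) : jH (γ • τ) = jH τ := by
  have hd : denom γ τ ≠ 0 := denom_ne_zero _ _
  rw [jH_apply, jH_apply, E₄_smul, discriminant_smul, mul_pow, ← zpow_natCast, ← zpow_mul]
  norm_num
  rw [mul_div_mul_left]
  exact pow_ne_zero _ hd

end Fermat.Agent.ModFn
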