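import Fermat.Agent.ModFn.JFun

set_option autoImplicit false

/-!
# Integral matrices of positive determinant acting on the upper half plane
-/

namespace Fermat.Agent.ModFn

open UpperHalfPlane hiding I
open Complex Function HahnSeries ModularCurve Filter ModularForm EisensteinSeries
open scoped Real Manifold Topology MatrixGroups ModularForm

/-- An integral matrix of nonzero determinant as an element of `GL₂(ℝ)`. -/
noncomputable def toGLR (A : Matrix (Fin 2) (Fin 2) ℤ) (hA : A.det ≠ 0) : GL (Fin 2) ℝ :=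
  Matrix.GeneralLinearGroup.mkOfDetNeZero (A.map (Int.castRingHom ℝ)) (by
    rw [← RingHom.mapMatrix_apply, ← RingHom.map_det]
    exact Int.cast_ne_zero.mpr hA)

@[simp] theorem toGLR_val (A : Matrix (Fin 2) (Fin 2) ℤ) (hA : A.det ≠ 0) :
    (toGLR A hA : Matrix (Fin 2) (Fin 2) ℝ) = A.map (Int.castRingHom ℝ) := rfl

theorem toGLR_mul (A B : Matrix (Fin 2) (Fin 2) ℤ) (hA : A.det ≠ 0) (hB : B.det ≠ 0)
    (hAB : (A * B).det ≠ 0) : toGLR (A * B) hAB = toGLR A hA * toGLR B hB := by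
  apply Units.ext
  rw [Units.val_mul, toGLR_val, toGLR_val, toGLR_val]
  exact (Int.castRingHom ℝ).mapMatrix.map_mul A B

theorem toGLR_coe (γ : SL(2, ℤ)) (h : (γ : Matrix (Fin 2) (Fin 2) ℤ).det ≠ 0) :
    toGLR (γ : Matrix (Fin 2) (Fin 2) ℤ) h = (γ : GL (Fin 2) ℝ) := by
  apply Units.ext
  ext i j
  rw [toGLR_val]
  rfl

/-- The action of an integral matrix of positive determinant on the upper half plane (junk if the
determinant is not positive). -/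
noncomputable def act (A : Matrix (Fin 2) (Fin 2) ℤ) (τ : ℍ) : ℍ :=
  if hA : A.det ≠ 0 then toGLR A hA • τ else τ

theorem act_of_ne (A : Matrix (Fin 2) (Fin 2) ℤ) (hA : A.det ≠ 0) (τ : ℍ) :
    act A τ = toGLR A hA • τ := dif_pos hA

theorem act_mul (A B : Matrix (Fin 2) (Fin 2) ℤ) (hA : A.det ≠ 0) (hB : B.det ≠ 0) (τ : ℍ) :
    act (A * B) τ = act A (act B τ) := by
  have hAB : (A * B).det ≠ 0 := by rw [Matrix.det_mul]; exact mul_ne_zero hA hB
  rw [act_of_ne _ hAB, act_of_ne _ hA, act_of_ne _ hB, toGLR_mul A B hA hB hAB, mul_smul]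

theorem act_coe (γ : SL(2, ℤ)) (τ : ℍ) : act (γ : Matrix (Fin 2) (Fin 2) ℤ) τ = γ • τ := by
  have h : (γ : Matrix (Fin 2) (Fin 2) ℤ).det ≠ 0 := by rw [γ.2]; exact one_ne_zero
  rw [act_of_ne _ h, toGLR_coe]
  rfl

theorem det_coe_ne_zero (γ : SL(2, ℤ)) : (γ : Matrix (Fin 2) (Fin 2) ℤ).det ≠ 0 := by
  rw [γ.2]; exact one_ne_zero

theorem act_coe_mul (γ : SL(2, ℤ)) (A : Matrix (Fin 2) (Fin 2) ℤ) (hA : A.det ≠ 0) (τ : ℍ) :
    act ((γ : Matrix (Fin 2) (Fin 2) ℤ) * A) τ = γ • act A τ := by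
  rw [act_mul _ _ (det_coe_ne_zero γ) hA, act_coe]

theorem act_mul_coe (A : Matrix (Fin 2) (Fin 2) ℤ) (hA : A.det ≠ 0) (γ : SL(2, ℤ)) (τ : ℍ) :
    act (A * (γ : Matrix (Fin 2) (Fin 2) ℤ)) τ = act A (γ • τ) := by
  rw [act_mul _ _ hA (det_coe_ne_zero γ), act_coe]

theorem det_toGLR (A : Matrix (Fin 2) (Fin 2) ℤ) (hA : A.det ≠ 0) :
    ((toGLR A hA).det : ℝ) = A.det := by
  rw [Matrix.GeneralLinearGroup.val_det_apply, toGLR_val, ← RingHom.mapMatrix_apply,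
    ← RingHom.map_det]
  rfl

/-- Explicit formula for the action. -/
theorem coe_act (A : Matrix (Fin 2) (Fin 2) ℤ) (hA : 0 < A.det) (τ : ℍ) :
    ((act A τ : ℍ) : ℂ) = (A 0 0 * τ + A 0 1) / (A 1 0 * τ + A 1 1) := by
  rw [act_of_ne _ hA.ne', coe_smul_of_det_pos (by
    rw [det_toGLR]; exact_mod_cast hA)]
  simp [num, denom]

/-- Upper triangular matrices. -/
theorem coe_act_upper (a d : ℕ) (b : ℤ) [NeZero a] [NeZero d] (τ : ℍ) :
    ((act !![(a : ℤ), b; 0, (d : ℤ)] τ : ℍ) : ℂ) = (a * (τ : ℂ) + b) / d := by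
  rw [coe_act]
  · simp
  · rw [Matrix.det_fin_two_of]
    have ha : (0 : ℤ) < a := by exact_mod_cast Nat.pos_of_neZero a
    have hd : (0 : ℤ) < d := by exact_mod_cast Nat.pos_of_neZero d
    have := mul_pos ha hd
    simpa using this

/-- Hermite normal form. -/
theorem exists_eq_mul_upper (A : Matrix (Fin 2) (Fin 2) ℤ) (hA : 0 < A.det) :
    ∃ (γ : SL(2, ℤ)) (a d : ℕ) (b : ℤ), 0 < a ∧ 0 < d ∧ 0 ≤ b ∧ b < d ∧ (a * d : ℤ) = A.det ∧
      A = (γ : Matrix (Fin 2) (Fin 2) ℤ) * !![(a : ℤ), b; 0, (d : ℤ)] := by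
  suffices H : ∀ B : FixedDetMatrix (Fin 2) ℤ A.det, ∃ (γ : SL(2, ℤ)) (a d : ℕ) (b : ℤ), 0 < a ∧
      0 < d ∧ 0 ≤ b ∧ b < d ∧ (a * d : ℤ) = A.det ∧
      B.1 = (γ : Matrix (Fin 2) (Fin 2) ℤ) * !![(a : ℤ), b; 0, (d : ℤ)] from H ⟨A, rfl⟩
  intro B
  refine FixedDetMatrices.induction_on (A := B) hA.ne' ?_ ?_ ?_
  · intro C h1 h2 h3 h4
    have hdet : C.1 0 0 * C.1 1 1 = A.det := by
      have := C.2
      rw [Matrix.det_fin_two, h1, mul_zero, sub_zero] at this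
      exact this
    have hd : 0 < C.1 1 1 := by
      by_contra hneg
      rw [not_lt] at hneg
      have := mul_nonpos_of_nonneg_of_nonpos h2.le hneg
      omega
    refine ⟨1, (C.1 0 0).toNat, (C.1 1 1).toNat, C.1 0 1, by omega, by omega, h3, ?_, ?_, ?_⟩
    · rw [abs_of_pos hd, abs_of_nonneg h3] at h4
      rw [Int.toNat_of_nonneg hd.le]; exact h4
    · rw [Int.toNat_of_nonneg hd.le, Int.toNat_of_nonneg h2.le]; exact hdet
    · rw [Int.toNat_of_nonneg hd.le, Int.toNat_of_nonneg h2.le, Matrix.SpecialLinearGroup.coe_one,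
        one_mul]
      ext i j
      fin_cases i <;> fin_cases j <;> simp [h1]
  · rintro C ⟨γ, a, d, b, ha, hd, hb, hbd, hdet, hC⟩
    refine ⟨ModularGroup.S * γ, a, d, b, ha, hd, hb, hbd, hdet, ?_⟩
    rw [FixedDetMatrices.smul_coe, hC, Matrix.SpecialLinearGroup.coe_mul, Matrix.mul_assoc]
  · rintro C ⟨γ, a, d, b, ha, hd, hb, hbd, hdet, hC⟩
    refine ⟨ModularGroup.T * γ, a, d, b, ha, hd, hb, hbd, hdet, ?_⟩
    rw [FixedDetMatrices.smul_coe, hC, Matrix.SpecialLinearGroup.coe_mul, Matrix.mul_assoc]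

/-- Conjugating an element of the principal congruence subgroup. -/
theorem exists_conj_of_mem_Gamma {M : ℕ} (A : Matrix (Fin 2) (Fin 2) ℤ) (hA : 0 < A.det)
    (hM : A.det ∣ M) (γ : SL(2, ℤ)) (hγ : γ ∈ CongruenceSubgroup.Gamma M) :
    ∃ δ : SL(2, ℤ), A * (γ : Matrix (Fin 2) (Fin 2) ℤ) = (δ : Matrix (Fin 2) (Fin 2) ℤ) * A := by
  obtain ⟨m, hm⟩ := hM
  -- write γ = 1 + M X
  obtain ⟨X, hX⟩ : ∃ X : Matrix (Fin 2) (Fin 2) ℤ,
      (γ : Matrix (Fin 2) (Fin 2) ℤ) = 1 + (M : ℤ) • X := by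
    rw [CongruenceSubgroup.Gamma_mem] at hγ
    obtain ⟨h00, h01, h10, h11⟩ := hγ
    have e00 : (M : ℤ) ∣ γ 0 0 - 1 := by
      rw [← ZMod.intCast_zmod_eq_zero_iff_dvd]; push_cast; rw [h00]; ring
    have e01 : (M : ℤ) ∣ γ 0 1 := by
      rw [← ZMod.intCast_zmod_eq_zero_iff_dvd]; exact h01
    have e10 : (M : ℤ) ∣ γ 1 0 := by
      rw [← ZMod.intCast_zmod_eq_zero_iff_dvd]; exact h10
    have e11 : (M : ℤ) ∣ γ 1 1 - 1 := by
      rw [← ZMod.intCast_zmod_eq_zero_iff_dvd]; push_cast; rw [h11]; ring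
    obtain ⟨x00, e00⟩ := e00
    obtain ⟨x01, e01⟩ := e01
    obtain ⟨x10, e10⟩ := e10
    obtain ⟨x11, e11⟩ := e11
    refine ⟨!![x00, x01; x10, x11], ?_⟩
    ext i j
    fin_cases i <;> fin_cases j <;> simp <;> omega
  obtain ⟨D, hD⟩ : ∃ D : Matrix (Fin 2) (Fin 2) ℤ, D = 1 + m • (A * X * A.adjugate) := ⟨_, rfl⟩
  have h1 : A * (γ : Matrix (Fin 2) (Fin 2) ℤ) = D * A := by
    rw [hX, hD, add_mul, one_mul, mul_add, mul_one, smul_mul_assoc, Matrix.mul_assoc (A * X),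
      Matrix.adjugate_mul, hm]
    simp only [Matrix.mul_smul, Matrix.mul_one, smul_smul, mul_comm]
  have h2 : D.det = 1 := by
    have := congrArg Matrix.det h1
    rw [Matrix.det_mul, Matrix.det_mul, γ.2, mul_one] at this
    exact (mul_right_cancel₀ hA.ne' ((one_mul _).trans this)).symm
  exact ⟨⟨D, h2⟩, h1⟩

end Fermat.Agent.ModFn
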