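import Fermat.Agent.ModFn.Invariant

set_option autoImplicit false

/-!
# The algebra of modular functions generated by `j ∘ A`
-/

namespace Fermat.Agent.ModFn

open UpperHalfPlane hiding I
open Complex Function HahnSeries ModularCurve Filter ModularForm EisensteinSeries
open scoped Real Manifold Topology MatrixGroups ModularForm
open Fermat.Agent.LevelOne

section

variable {K : Type*} [Field K] [Algebra K ℂ]

/-- A polynomial in `j`. -/
theorem mem_adjoin_jH_of_mem_expAlg {f : ℍ → ℂ} (hf : f ∈ expAlg K 1)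
    (hinv : ∀ (γ : SL(2, ℤ)) (τ : ℍ), f (γ • τ) = f τ) : f ∈ Algebra.adjoin K {jH} := by
  obtain ⟨φ, hφ⟩ := hf
  obtain ⟨n, hn⟩ : ∃ n : ℕ, ∀ m : ℤ, m < -(n : ℤ) → φ.coeff m = 0 := by
    refine ⟨φ.order.natAbs, fun m hm => ?_⟩
    apply HahnSeries.coeff_eq_zero_of_lt_order
    omega
  obtain ⟨P, -, hP, -⟩ := exists_polynomial_of_invariant (algebraMap K ℂ)
    (algebraMap K ℂ).injective n hφ hinv hn
  have h1 : f = Polynomial.aeval jH P := by
    funext τ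
    rw [hP τ]
    have h2 := Polynomial.hom_eval₂ P (algebraMap K (ℍ → ℂ)) (Pi.evalRingHom (fun _ : ℍ => ℂ) τ) jH
    rw [Polynomial.aeval_def]
    exact h2.symm
  rw [h1]
  exact Polynomial.aeval_mem_adjoin_singleton K jH

theorem coeffMap_contract {R S : Type*} [CommRing R] [CommRing S] (f : R →+* S) (m : ℕ) [NeZero m]
    (φ : LaurentSeries R) : coeffMap f (contract m φ) = contract m (coeffMap f φ) := by
  ext n
  rw [coeffMap_coeff, contract_coeff, contract_coeff, coeffMap_coeff]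

theorem T_smul_eq_vadd (τ : ℍ) : ModularGroup.T • τ = ((1 : ℤ) : ℝ) +ᵥ τ := by
  rw [modular_T_smul]
  simp

theorem T_zpow_smul_eq_vadd (k : ℤ) (τ : ℍ) : ModularGroup.T ^ k • τ = (k : ℝ) +ᵥ τ := by
  apply UpperHalfPlane.ext
  rw [ModularGroup.coe_T_zpow_smul_eq, UpperHalfPlane.coe_vadd]
  push_cast
  ring

theorem mem_expAlg_one_of_mem {M : ℕ} [NeZero M] {f : ℍ → ℂ} (hf : f ∈ expAlg K M)
    (hinv : ∀ τ : ℍ, f (ModularGroup.T • τ) = f τ) : f ∈ expAlg K 1 := by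
  obtain ⟨φ, hφ⟩ := hf
  refine ⟨contract M φ, ?_⟩
  rw [coeffMap_contract]
  have h1 : HasExp (1 * M) f (coeffMap (algebraMap K ℂ) φ) := by rwa [one_mul]
  exact (h1.contract (fun τ => by
    have := hinv τ
    rw [T_smul_eq_vadd] at this
    simpa using this)).1

end

/-- `τ ↦ j(dτ)`. -/
noncomputable def jd (d : ℕ) : ℍ → ℂ := fun τ => jH (act !![(d : ℤ), 0; 0, 1] τ)

theorem coe_act_diag (d : ℕ) [NeZero d] (τ : ℍ) :
    ((act !![(d : ℤ), 0; 0, 1] τ : ℍ) : ℂ) = d * τ := by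
  have := coe_act_upper d 1 0 τ
  simpa using this

theorem det_diag (d : ℕ) : (!![(d : ℤ), 0; 0, 1] : Matrix (Fin 2) (Fin 2) ℤ).det = d := by
  simp [Matrix.det_fin_two_of]

theorem jd_eq (d : ℕ) [NeZero d] (τ τ' : ℍ) (h : (τ' : ℂ) = d * τ) : jd d τ = jH τ' := by
  rw [jd]
  congr 1
  apply UpperHalfPlane.ext
  rw [coe_act_diag, h]

theorem jd_one : jd 1 = jH := by
  funext τ
  exact jd_eq 1 τ τ (by simp)

variable (K : Type*) [Field K] [Algebra K ℂ]

/-- The algebra generated by the functions `j ∘ A`, `det A ∣ M`. -/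
noncomputable def modR (M : ℕ) : Subalgebra K (ℍ → ℂ) :=
  Algebra.adjoin K {f | ∃ A : Matrix (Fin 2) (Fin 2) ℤ, 0 < A.det ∧ A.det ∣ M ∧
    f = fun τ => jH (act A τ)}

variable {K}

theorem jH_act_mem_modR {M : ℕ} {A : Matrix (Fin 2) (Fin 2) ℤ} (hA : 0 < A.det)
    (hM : A.det ∣ M) : (fun τ => jH (act A τ)) ∈ modR K M :=
  Algebra.subset_adjoin ⟨A, hA, hM, rfl⟩

/-- R1 -/
theorem jd_mem_modR {M d : ℕ} [NeZero d] (h : d ∣ M) : jd d ∈ modR K M := by
  refine jH_act_mem_modR ?_ ?_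
  · rw [det_diag]; exact_mod_cast Nat.pos_of_neZero d
  · rw [det_diag]; exact_mod_cast h

theorem jH_mem_modR (M : ℕ) : jH ∈ modR K M := by
  rw [← jd_one]
  exact jd_mem_modR (one_dvd M)

/-- Precomposition as an algebra homomorphism. -/
def precomp (u : ℍ → ℍ) : (ℍ → ℂ) →ₐ[K] (ℍ → ℂ) where
  toFun f := fun τ => f (u τ)
  map_one' := rfl
  map_mul' _ _ := rfl
  map_zero' := rfl
  map_add' _ _ := rfl
  commutes' _ := rfl

/-- R2 -/
theorem smul_mem_modR {M : ℕ} (γ : SL(2, ℤ)) {f : ℍ → ℂ} (hf : f ∈ modR K M) :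
    (fun τ => f (γ • τ)) ∈ modR K M := by
  have h1 : modR K M ≤ (modR K M).comap (precomp (fun τ => γ • τ)) := by
    rw [modR, Algebra.adjoin_le_iff]
    rintro _ ⟨A, hA, hM, rfl⟩
    have h2 : (fun τ => jH (act (A * (γ : Matrix (Fin 2) (Fin 2) ℤ)) τ)) ∈ modR K M := by
      refine jH_act_mem_modR ?_ ?_
      · rw [Matrix.det_mul, γ.2, mul_one]; exact hA
      · rw [Matrix.det_mul, γ.2, mul_one]; exact hM
    simp only [act_mul_coe A hA.ne' γ] at h2
    exact h2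
  exact h1 hf

/-- R3 -/
theorem apply_smul_of_mem_Gamma {M : ℕ} {γ : SL(2, ℤ)} (hγ : γ ∈ CongruenceSubgroup.Gamma M)
    {f : ℍ → ℂ} (hf : f ∈ modR K M) (τ : ℍ) : f (γ • τ) = f τ := by
  have h1 : modR K M ≤ AlgHom.equalizer (precomp (fun τ => γ • τ)) (AlgHom.id K (ℍ → ℂ)) := by
    rw [modR, Algebra.adjoin_le_iff]
    rintro _ ⟨A, hA, hM, rfl⟩
    change (fun τ => jH (act A (γ • τ))) = fun τ => jH (act A τ)
    obtain ⟨δ, hδ⟩ := exists_conj_of_mem_Gamma A hA hM γ hγ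
    funext τ
    rw [← act_mul_coe A hA.ne' γ, hδ, act_coe_mul _ _ hA.ne', jH_smul]
  exact congrFun (h1 hf) τ

/-! ### Expansions -/

/-- Existence of enough roots of unity in `K`. -/
def HasRoots (K : Type*) [Field K] [Algebra K ℂ] (M : ℕ) : Prop :=
  ∀ d : ℕ, d ∣ M → ∃ z : K, algebraMap K ℂ z = Complex.exp (2 * π * I / d)

theorem hasRoots_of_isAlgClosed (K : Type*) [Field K] [Algebra K ℂ] [IsAlgClosed K] (M : ℕ)
    [NeZero M] : HasRoots K M := by
  intro d hd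
  have : NeZero d := ⟨fun h => by
    rw [h, zero_dvd_iff] at hd
    exact NeZero.ne M hd⟩
  have : CharZero K := (algebraMap K ℂ).charZero
  obtain ⟨ζ, hζ⟩ := HasEnoughRootsOfUnity.exists_primitiveRoot K d
  have h1 := hζ.map_of_injective (algebraMap K ℂ).injective
  obtain ⟨i, -, hi⟩ := h1.eq_pow_of_pow_eq_one (Complex.isPrimitiveRoot_exp d (NeZero.ne d)).pow_eq_one
  exact ⟨ζ ^ i, by rw [map_pow]; exact hi⟩

theorem HasRoots.exists_unit {M : ℕ} (hK : HasRoots K M) {d : ℕ} (hd : d ∣ M) :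
    ∃ z : Kˣ, Units.map (algebraMap K ℂ).toMonoidHom z = zetaU d := by
  obtain ⟨z, hz⟩ := hK d hd
  have hz0 : z ≠ 0 := by
    rintro rfl
    rw [map_zero] at hz
    exact Complex.exp_ne_zero _ hz.symm
  refine ⟨Units.mk0 z hz0, ?_⟩
  apply Units.ext
  exact hz

/-- Expansion of `j((aτ+b)/d)`. -/
theorem hasExp_jH_upper (a d : ℕ) [NeZero a] [NeZero d] (b : ℤ) :
    HasExp d (fun τ => jH (act !![(a : ℤ), b; 0, (d : ℤ)] τ))
      (qExpand ℂ a (twist (zetaU d ^ b) (jqModC ℂ))) := by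
  have := hasExp_jH.affine (a := a) (d := d) b (g := fun τ => jH (act !![(a : ℤ), b; 0, (d : ℤ)] τ))
    (act !![(a : ℤ), b; 0, (d : ℤ)]) (fun τ => coe_act_upper a d b τ) (fun τ => rfl)
  simpa only [one_mul] using this

theorem jH_act_mem_expAlg {M : ℕ} [NeZero M] (hK : HasRoots K M) {A : Matrix (Fin 2) (Fin 2) ℤ}
    (hA : 0 < A.det) (hM : A.det ∣ M) : (fun τ => jH (act A τ)) ∈ expAlg K M := by
  obtain ⟨γ, a, d, b, ha, hd, -, -, hdet, hAe⟩ := exists_eq_mul_upper A hA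
  have : NeZero a := ⟨ha.ne'⟩
  have : NeZero d := ⟨hd.ne'⟩
  have hadM : a * d ∣ M := by
    rw [← hdet] at hM
    exact_mod_cast hM
  have hdM : d ∣ M := (dvd_mul_left d a).trans hadM
  obtain ⟨e, he⟩ := hdM
  have : NeZero e := ⟨by rintro rfl; exact NeZero.ne M (by rw [he, mul_zero])⟩
  obtain ⟨z, hz⟩ := hK.exists_unit (Dvd.intro e he.symm)
  have hU : (!![(a : ℤ), b; 0, (d : ℤ)] : Matrix (Fin 2) (Fin 2) ℤ).det ≠ 0 := by
    rw [Matrix.det_fin_two_of]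
    simp [ha.ne', hd.ne']
  have h1 : (fun τ => jH (act A τ)) = fun τ => jH (act !![(a : ℤ), b; 0, (d : ℤ)] τ) := by
    funext τ
    rw [hAe, act_coe_mul _ _ hU, jH_smul]
  rw [h1]
  subst he
  refine expAlg_mono ⟨qExpand K a (twist (z ^ b) (jqModC K)), ?_⟩
  rw [coeffMap_qExpand, coeffMap_twist, coeffMap_jqModC, map_zpow, hz]
  exact hasExp_jH_upper a d b

/-- R6 -/
theorem modR_le_expAlg {M : ℕ} [NeZero M] (hK : HasRoots K M) : modR K M ≤ expAlg K M := by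
  rw [modR, Algebra.adjoin_le_iff]
  rintro _ ⟨A, hA, hM, rfl⟩
  exact jH_act_mem_expAlg hK hA hM

/-- R4 -/
theorem mem_adjoin_jH {M : ℕ} [NeZero M] (hK : HasRoots K M) {f : ℍ → ℂ} (hf : f ∈ modR K M)
    (hinv : ∀ (γ : SL(2, ℤ)) (τ : ℍ), f (γ • τ) = f τ) : f ∈ Algebra.adjoin K {jH} :=
  mem_adjoin_jH_of_mem_expAlg (mem_expAlg_one_of_mem (modR_le_expAlg hK hf) (hinv _)) hinv

theorem hasExp_jd (d : ℕ) [NeZero d] : HasExp 1 (jd d) (qExpand ℂ d (jqModC ℂ)) := by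
  have := hasExp_jH_upper d 1 0
  rw [zpow_zero, twist_one] at this
  exact this

end Fermat.Agent.ModFn
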