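import Mathlib

set_option autoImplicit false

/-!
# Laurent series summing at a point

`SumsTo φ q s` : the Laurent series `φ` evaluated at the point `q` converges (absolutely) to `s`.
-/

namespace Fermat.Agent.ModFn

open HahnSeries

/-- The Laurent series `φ` converges at `q` with sum `s`. -/
def SumsTo (φ : LaurentSeries ℂ) (q s : ℂ) : Prop :=
  HasSum (fun n : ℤ => φ.coeff n * q ^ n) s

namespace SumsTo

variable {φ ψ : LaurentSeries ℂ} {q s t : ℂ}

theorem unique (h : SumsTo φ q s) (h' : SumsTo φ q t) : s = t :=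
  HasSum.unique h h'

theorem zero (q : ℂ) : SumsTo 0 q 0 := by
  simp [SumsTo]

theorem add (h : SumsTo φ q s) (h' : SumsTo ψ q t) : SumsTo (φ + ψ) q (s + t) := by
  have := HasSum.add h h'
  simpa only [SumsTo, HahnSeries.coeff_add, add_mul] using this

theorem neg (h : SumsTo φ q s) : SumsTo (-φ) q (-s) := by
  have := HasSum.neg h
  simpa only [SumsTo, HahnSeries.coeff_neg, neg_mul] using this

theorem sub (h : SumsTo φ q s) (h' : SumsTo ψ q t) : SumsTo (φ - ψ) q (s - t) := by
  have := HasSum.sub h h'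
  simpa only [SumsTo, HahnSeries.coeff_sub, sub_mul] using this

theorem single (n : ℤ) (c q : ℂ) : SumsTo (HahnSeries.single n c) q (c * q ^ n) := by
  rw [SumsTo]
  have h := hasSum_single (f := fun m : ℤ => (HahnSeries.single n c : LaurentSeries ℂ).coeff m *
    q ^ m) n (fun m hm => by simp [HahnSeries.coeff_single_of_ne hm])
  simpa using h

theorem C (c q : ℂ) : SumsTo (HahnSeries.C c) q c := by
  have := single 0 c q
  simpa using this

theorem one (q : ℂ) : SumsTo 1 q 1 := by
  have := C 1 q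
  simpa using this

theorem _root_.Fermat.Agent.ModFn.hasSum_convolution (a b : ℤ → ℂ) (s t : ℂ) (h : HasSum a s)
    (h' : HasSum b t) (c : ℤ → ℂ)
    (hc : ∀ n, HasSum (fun i => a i * b (n - i)) (c n)) : HasSum c (s * t) := by
  have hsum := summable_mul_of_summable_norm h.summable.norm h'.summable.norm
  have hprod := HasSum.mul h h' hsum
  let e : ℤ × ℤ ≃ ℤ × ℤ :=
    { toFun := fun x => (x.2, x.1 - x.2)
      invFun := fun x => (x.1 + x.2, x.1)
      left_inv := fun x => by simp
      right_inv := fun x => by simp }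
  have hprod' := (Equiv.hasSum_iff e).mpr hprod
  exact HasSum.prod_fiberwise hprod' hc

theorem mul (hq : q ≠ 0) (h : SumsTo φ q s) (h' : SumsTo ψ q t) : SumsTo (φ * ψ) q (s * t) := by
  classical
  refine hasSum_convolution _ _ s t h h' _ (fun n => ?_)
  obtain ⟨A, hA⟩ : ∃ A : Finset (ℤ × ℤ),
      A = Finset.antidiagonal φ.isPWO_support ψ.isPWO_support n := ⟨_, rfl⟩
  have hAmem : ∀ x : ℤ × ℤ, x ∈ A ↔ φ.coeff x.1 ≠ 0 ∧ ψ.coeff x.2 ≠ 0 ∧ x.1 + x.2 = n := by
    intro x
    rw [hA, Finset.mem_antidiagonal]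
    rfl
  have hcoeff : (φ * ψ).coeff n = ∑ x ∈ A, φ.coeff x.1 * ψ.coeff x.2 := by
    rw [hA, HahnSeries.coeff_mul]
  have h1 : HasSum (fun i : ℤ => (φ.coeff i * q ^ i) * (ψ.coeff (n - i) * q ^ (n - i)))
      (∑ i ∈ A.image Prod.fst, (φ.coeff i * q ^ i) * (ψ.coeff (n - i) * q ^ (n - i))) := by
    apply hasSum_sum_of_ne_finset_zero
    intro i hi
    by_contra hne
    apply hi
    rw [Finset.mem_image]
    refine ⟨(i, n - i), ?_, rfl⟩
    rw [hAmem]
    refine ⟨?_, ?_, by simp⟩
    · intro h0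
      apply hne
      simp only at h0
      rw [h0]; ring
    · intro h0
      apply hne
      simp only at h0
      rw [h0]; ring
  rw [Finset.sum_image (fun x hx y hy hxy => by
    have h1 := ((hAmem x).mp hx).2.2
    have h2 := ((hAmem y).mp hy).2.2
    exact Prod.ext hxy (by omega))] at h1
  have h2 : (φ * ψ).coeff n * q ^ n =
      ∑ x ∈ A, (φ.coeff x.1 * q ^ x.1) * (ψ.coeff (n - x.1) * q ^ (n - x.1)) := by
    rw [hcoeff, Finset.sum_mul]
    refine Finset.sum_congr rfl fun x hx => ?_
    have hx' := ((hAmem x).mp hx).2.2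
    have hx2 : n - x.1 = x.2 := by omega
    rw [hx2, ← hx', zpow_add₀ hq]
    ring
  rw [h2]
  exact h1

theorem pow (hq : q ≠ 0) (h : SumsTo φ q s) (n : ℕ) : SumsTo (φ ^ n) q (s ^ n) := by
  induction n with
  | zero => simpa using one q
  | succ n ih => rw [pow_succ, pow_succ]; exact ih.mul hq h

theorem sum {ι : Type*} (u : Finset ι) {φ : ι → LaurentSeries ℂ} {s : ι → ℂ}
    (h : ∀ i ∈ u, SumsTo (φ i) q (s i)) : SumsTo (∑ i ∈ u, φ i) q (∑ i ∈ u, s i) := by
  classical
  induction u using Finset.induction_on with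
  | empty => simpa using zero q
  | insert a u ha ih =>
    rw [Finset.sum_insert ha, Finset.sum_insert ha]
    exact (h a (Finset.mem_insert_self a u)).add
      (ih fun i hi => h i (Finset.mem_insert_of_mem hi))

theorem prod {ι : Type*} (hq : q ≠ 0) (u : Finset ι) {φ : ι → LaurentSeries ℂ} {s : ι → ℂ}
    (h : ∀ i ∈ u, SumsTo (φ i) q (s i)) : SumsTo (∏ i ∈ u, φ i) q (∏ i ∈ u, s i) := by
  classical
  induction u using Finset.induction_on with
  | empty => simpa using one q
  | insert a u ha ih =>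
    rw [Finset.prod_insert ha, Finset.prod_insert ha]
    exact (h a (Finset.mem_insert_self a u)).mul hq
      (ih fun i hi => h i (Finset.mem_insert_of_mem hi))

/-- A power series, viewed as a Laurent series. -/
theorem ofPowerSeries_iff {F : PowerSeries ℂ} :
    SumsTo (HahnSeries.ofPowerSeries ℤ ℂ F) q s ↔
      HasSum (fun n : ℕ => F.coeff n * q ^ n) s := by
  rw [SumsTo, ← (Nat.cast_injective (R := ℤ)).hasSum_iff (f := fun n : ℤ =>
    (HahnSeries.ofPowerSeries ℤ ℂ F).coeff n * q ^ n)]
  · refine iff_of_eq (congrArg₂ HasSum ?_ rfl)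
    funext n
    simp only [Function.comp_apply, zpow_natCast]
    rw [HahnSeries.ofPowerSeries_apply_coeff]
  · intro n hn
    have : (HahnSeries.ofPowerSeries ℤ ℂ F).coeff n = 0 := by
      rw [HahnSeries.ofPowerSeries_apply]
      apply HahnSeries.embDomain_of_notMem_range
      rintro ⟨m, hm⟩
      exact hn ⟨m, hm⟩
    rw [this, zero_mul]

end SumsTo

end Fermat.Agent.ModFn
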